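import Mathlib

/-!
# S31, block (T), leaf (DK): Dickson sequences

`s31_dk t d i` is the sequence `D 0 = 2`, `D 1 = t`, `D (i+2) = t * D (i+1) - d * D i`, i.e.
`X ^ i + Y ^ i` expressed through `t = X + Y`, `d = X * Y`.

* `s31_dk_map` : compatibility with ring homomorphisms;
* `s31_dk_trace` : for an endomorphism `f` of a free module of rank `2` with characteristic
  polynomial `X² - t X + d`, `trace (f ^ i) = D i`;
* `s31_dk_op` : if `φ² - τ φ + l = 0` with `φ`, `τ` commuting, then
  `D_i(τ, l) * φ ^ i = φ ^ (2 i) + l ^ i`.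
-/

set_option autoImplicit false

open Polynomial

namespace Fermat.Agent.S31

/-- The Dickson sequence `D 0 = 2`, `D 1 = t`, `D (i+2) = t * D (i+1) - d * D i`. -/
def s31_dk {R : Type*} [Ring R] (t d : R) : ℕ → R
  | 0 => 2
  | 1 => t
  | (i + 2) => t * s31_dk t d (i + 1) - d * s31_dk t d i

theorem s31_dk_zero {R : Type*} [Ring R] (t d : R) : s31_dk t d 0 = 2 := by
  rw [s31_dk]

theorem s31_dk_one {R : Type*} [Ring R] (t d : R) : s31_dk t d 1 = t := by
  rw [s31_dk]

theorem s31_dk_add_two {R : Type*} [Ring R] (t d : R) (i : ℕ) :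
    s31_dk t d (i + 2) = t * s31_dk t d (i + 1) - d * s31_dk t d i := by
  rw [s31_dk]

/-- Dickson sequences commute with ring homomorphisms. -/
theorem s31_dk_map {R R' : Type*} [Ring R] [Ring R'] (f : R →+* R') (t d : R) (i : ℕ) :
    f (s31_dk t d i) = s31_dk (f t) (f d) i := by
  induction i using Nat.twoStepInduction with
  | zero => rw [s31_dk_zero, s31_dk_zero, map_ofNat]
  | one => rw [s31_dk_one, s31_dk_one]
  | more i h1 h2 =>
    rw [s31_dk_add_two, s31_dk_add_two, map_sub, map_mul, map_mul, h1, h2]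

/-- For commuting `φ`, `y`: `D_i(φ + y, φ y) = φ ^ i + y ^ i`. -/
theorem s31_dk_add {B : Type*} [Ring B] (φ y : B) (hy : Commute φ y) (i : ℕ) :
    s31_dk (φ + y) (φ * y) i = φ ^ i + y ^ i := by
  induction i using Nat.twoStepInduction with
  | zero => rw [s31_dk_zero, pow_zero, pow_zero]; norm_num
  | one => rw [s31_dk_one, pow_one, pow_one]
  | more i h1 h2 =>
    rw [s31_dk_add_two, h1, h2]
    have c1 : y * φ ^ (i + 1) = φ * y * φ ^ i := by
      rw [pow_succ', ← mul_assoc, hy.eq]
    have c2 : φ * y ^ (i + 1) = φ * y * y ^ i := by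
      rw [pow_succ', ← mul_assoc]
    rw [add_mul, mul_add, mul_add, c1, c2, ← pow_succ', ← pow_succ', mul_add]
    abel

/-- If `φ² - τ φ + l = 0` with `φ` and `τ` commuting, then
`D_i(τ, l) = φ ^ i + (τ - φ) ^ i`. -/
theorem s31_dk_eq {B : Type*} [Ring B] (φ τ l : B) (hc : Commute φ τ)
    (h : φ * φ - τ * φ + l = 0) (i : ℕ) :
    s31_dk τ l i = φ ^ i + (τ - φ) ^ i := by
  have hy : Commute φ (τ - φ) := hc.sub_right (Commute.refl φ)
  have hprod : φ * (τ - φ) = l := by
    have h1 : φ * (τ - φ) = τ * φ - φ * φ := by rw [mul_sub, hc.eq]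
    rw [h1]
    have h2 : l = -(φ * φ - τ * φ) := eq_neg_of_add_eq_zero_right h
    rw [h2]; abel
  have e1 : φ + (τ - φ) = τ := by abel
  have := s31_dk_add φ (τ - φ) hy i
  rwa [e1, hprod] at this

/-- **(DK-op)** If `φ² - τ φ + l = 0` with `φ` and `τ` commuting and `l` central, then
`D_i(τ, l) * φ ^ i = φ ^ (2 i) + l ^ i`. -/
theorem s31_dk_op {B : Type*} [Ring B] (φ τ l : B) (hc : Commute φ τ)
    (h : φ * φ - τ * φ + l = 0) (i : ℕ) :
    s31_dk τ l i * φ ^ i = φ ^ (2 * i) + l ^ i := by
  have hy : Commute φ (τ - φ) := hc.sub_right (Commute.refl φ)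
  have hprod : (τ - φ) * φ = l := by
    rw [← hy.eq]
    have h1 : φ * (τ - φ) = τ * φ - φ * φ := by rw [mul_sub, hc.eq]
    rw [h1]
    have h2 : l = -(φ * φ - τ * φ) := eq_neg_of_add_eq_zero_right h
    rw [h2]; abel
  rw [s31_dk_eq φ τ l hc h i, add_mul, ← pow_add, ← two_mul]
  congr 1
  rw [← hprod, (hy.symm).mul_pow]

/-- **(DK-trace)** For an endomorphism `f` of a free module of rank `2` with characteristic
polynomial `X² - t X + d`, the trace of `f ^ i` is `D_i(t, d)`. -/
theorem s31_dk_trace {A : Type*} [CommRing A] {V : Type*} [AddCommGroup V] [Module A V]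
    [Module.Free A V] [Module.Finite A V] (hV : Module.finrank A V = 2)
    (f : Module.End A V) (t d : A) (hf : f.charpoly = X ^ 2 - C t * X + C d) (i : ℕ) :
    LinearMap.trace A V (f ^ i) = s31_dk t d i := by
  nontriviality A
  have hCH : f ^ 2 = t • f - d • (1 : Module.End A V) := by
    have h1 := LinearMap.aeval_self_charpoly f
    rw [hf] at h1
    simp only [map_add, map_sub, map_mul, map_pow, aeval_X, aeval_C] at h1
    rw [Algebra.algebraMap_eq_smul_one, Algebra.algebraMap_eq_smul_one, smul_mul_assoc,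
      one_mul] at h1
    rw [sub_add_eq_add_sub, sub_eq_zero] at h1
    rw [eq_sub_iff_add_eq, h1]
  have htr1 : LinearMap.trace A V f = t := by
    have h1 := LinearMap.charpoly_toMatrix f (Module.Free.chooseBasis A V)
    have hcard : Fintype.card (Module.Free.ChooseBasisIndex A V) = 2 := by
      rw [← Module.finrank_eq_card_chooseBasisIndex, hV]
    have : Nonempty (Module.Free.ChooseBasisIndex A V) := by
      rw [← Fintype.card_pos_iff, hcard]; norm_num
    have h3 := Matrix.trace_eq_neg_charpoly_coeff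
      (LinearMap.toMatrix (Module.Free.chooseBasis A V) (Module.Free.chooseBasis A V) f)
    rw [h1, hf, hcard] at h3
    rw [LinearMap.trace_eq_matrix_trace A (Module.Free.chooseBasis A V) f, h3]
    simp [coeff_C]
  have htr0 : LinearMap.trace A V (1 : Module.End A V) = 2 := by
    rw [LinearMap.trace_one, hV]; norm_num
  induction i using Nat.twoStepInduction with
  | zero => rw [pow_zero, htr0, s31_dk_zero]
  | one => rw [pow_one, htr1, s31_dk_one]
  | more i h1 h2 =>
    have e : f ^ (i + 2) = t • f ^ (i + 1) - d • f ^ i := by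
      rw [pow_add, hCH, mul_sub, mul_smul_comm, mul_smul_comm, mul_one, ← pow_succ]
    rw [e, map_sub, map_smul, map_smul, h1, h2, s31_dk_add_two, smul_eq_mul, smul_eq_mul]

end Fermat.Agent.S31
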