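import Mathlib
import Fermat.Prelude.Def_GaloisRep_Adic

/-!
# S31, key lemma (K)

`A` a local ring, `V` free of rank two, `ρ : G →* End_A(V)` with absolutely irreducible residual
representation, `τ ∈ G` with `tr ρ(g τ) = tr ρ(g)` for all `g`.  Then `ρ(τ) = 1`.

Proof: Burnside in dimension two over the algebraically closed field gives four group elements
whose images are linearly independent; the `4 × 4` determinant of their entries is then a unit of
`A`, and the linear system `tr (ρ(g_i) (ρ(τ) - 1)) = 0` forces `ρ(τ) = 1`.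
-/

set_option autoImplicit false

namespace Fermat.Agent.S31

open scoped TensorProduct

section Burnside

variable {K : Type*} [Field K] [IsAlgClosed K] {V : Type*} [AddCommGroup V] [Module K V]

/-- Burnside's theorem in dimension two: a subalgebra of `End_K(V)`, `dim V = 2`, `K`
algebraically closed, without proper invariant subspaces, is everything. -/
theorem s31_burnside_two (hV : Module.finrank K V = 2) (B : Subalgebra K (Module.End K V))
    (hirr : ∀ W : Submodule K V, (∀ b ∈ B, ∀ x ∈ W, b x ∈ W) → W = ⊥ ∨ W = ⊤) :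
    B = ⊤ := by
  have : FiniteDimensional K V := Module.finite_of_finrank_eq_succ hV
  have : Nontrivial V := Module.nontrivial_of_finrank_pos (R := K) (by omega)
  -- Step 1: a non-scalar element
  have h1 : ∃ x ∈ B, ∀ c : K, x ≠ c • (1 : Module.End K V) := by
    by_contra hcon
    push Not at hcon
    obtain ⟨v, hv⟩ := exists_ne (0 : V)
    have h := hirr (K ∙ v) (fun b hb x hx => by
      obtain ⟨c, hc⟩ := hcon b hb
      rw [hc]
      exact Submodule.smul_mem _ _ hx)
    rcases h with h | h
    · exact hv ((Submodule.span_singleton_eq_bot).mp h)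
    · have h2 := finrank_span_singleton (K := K) hv
      rw [h, finrank_top, hV] at h2
      omega
  obtain ⟨x, hxB, hx⟩ := h1
  obtain ⟨μ, hμ⟩ := Module.End.exists_eigenvalue x
  obtain ⟨v, hv⟩ := hμ.exists_hasEigenvector
  have hyB : x - μ • (1 : Module.End K V) ∈ B := B.sub_mem hxB (B.smul_mem (B.one_mem) μ)
  have hyv : (x - μ • (1 : Module.End K V)) v = 0 := by
    rw [LinearMap.sub_apply, LinearMap.smul_apply, Module.End.one_apply, hv.apply_eq_smul,
      sub_self]
  have hy0 : x - μ • (1 : Module.End K V) ≠ 0 := fun h => hx μ (sub_eq_zero.mp h)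
  generalize x - μ • (1 : Module.End K V) = y at hyB hyv hy0
  obtain ⟨w, hw⟩ : ∃ w, y w ≠ 0 := by
    by_contra hcon
    push Not at hcon
    exact hy0 (LinearMap.ext hcon)
  have hv0 : v ≠ 0 := hv.2
  -- (i) `B v = V`
  have hi : ∀ u : V, ∃ b ∈ B, b v = u := by
    let W1 : Submodule K V :=
      { carrier := {u | ∃ b ∈ B, b v = u}
        add_mem' := by
          rintro _ _ ⟨b, hb, rfl⟩ ⟨b', hb', rfl⟩
          exact ⟨b + b', B.add_mem hb hb', rfl⟩
        zero_mem' := ⟨0, B.zero_mem, rfl⟩
        smul_mem' := by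
          rintro c _ ⟨b, hb, rfl⟩
          exact ⟨c • b, B.smul_mem hb c, rfl⟩ }
    have h := hirr W1 (by
      rintro b' hb' _ ⟨b, hb, rfl⟩
      exact ⟨b' * b, B.mul_mem hb' hb, rfl⟩)
    rcases h with h | h
    · exfalso
      have hvW : v ∈ W1 := ⟨1, B.one_mem, rfl⟩
      rw [h, Submodule.mem_bot] at hvW
      exact hv0 hvW
    · intro u
      have hu : u ∈ W1 := by rw [h]; exact Submodule.mem_top
      exact hu
  -- (ii) `Ann_B(v) w = V`
  have hii : ∀ u : V, ∃ b ∈ B, b v = 0 ∧ b w = u := by
    let W2 : Submodule K V :=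
      { carrier := {u | ∃ b ∈ B, b v = 0 ∧ b w = u}
        add_mem' := by
          rintro _ _ ⟨b, hb, hbv, rfl⟩ ⟨b', hb', hbv', rfl⟩
          exact ⟨b + b', B.add_mem hb hb', by rw [LinearMap.add_apply, hbv, hbv', add_zero], rfl⟩
        zero_mem' := ⟨0, B.zero_mem, rfl, rfl⟩
        smul_mem' := by
          rintro c _ ⟨b, hb, hbv, rfl⟩
          exact ⟨c • b, B.smul_mem hb c, by rw [LinearMap.smul_apply, hbv, smul_zero], rfl⟩ }
    have h := hirr W2 (by
      rintro b' hb' _ ⟨b, hb, hbv, rfl⟩
      exact ⟨b' * b, B.mul_mem hb' hb, by rw [Module.End.mul_apply, hbv, map_zero], rfl⟩)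
    rcases h with h | h
    · exfalso
      have hvW : y w ∈ W2 := ⟨y, hyB, hyv, rfl⟩
      rw [h, Submodule.mem_bot] at hvW
      exact hw hvW
    · intro u
      have hu : u ∈ W2 := by rw [h]; exact Submodule.mem_top
      exact hu
  -- (iii) `v, w` is a basis
  have hli : LinearIndependent K ![v, w] := by
    rw [LinearIndependent.pair_iff]
    intro s t hst
    have h2 := congrArg y hst
    rw [map_add, map_smul, map_smul, hyv, smul_zero, zero_add, map_zero] at h2
    have ht : t = 0 := (smul_eq_zero.mp h2).resolve_right hw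
    subst ht
    rw [zero_smul, add_zero] at hst
    exact ⟨(smul_eq_zero.mp hst).resolve_right hv0, rfl⟩
  have hspan : Submodule.span K (Set.range ![v, w]) = ⊤ :=
    hli.span_eq_top_of_card_eq_finrank' (by rw [hV]; rfl)
  rw [eq_top_iff]
  intro f _
  obtain ⟨b1, hb1, hb1v⟩ := hi (f v)
  obtain ⟨b2, hb2, hb2v, hb2w⟩ := hii (f w - b1 w)
  have hf : f = b1 + b2 := by
    refine LinearMap.ext_on_range hspan ?_
    intro i
    fin_cases i
    · show f v = (b1 + b2) v
      rw [LinearMap.add_apply, hb1v, hb2v, add_zero]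
    · show f w = (b1 + b2) w
      rw [LinearMap.add_apply, hb2w, add_sub_cancel]
  rw [hf]
  exact B.add_mem hb1 hb2

end Burnside

section Det

/-- A spanning family over the residue field (or any field killing the maximal ideal) contains a
subfamily whose coordinate matrix has unit determinant. -/
theorem s31_exists_unit_det {A : Type*} [CommRing A] [IsLocalRing A] {K : Type*} [Field K]
    (φ : A →+* K) (hφ : ∀ a ∈ IsLocalRing.maximalIdeal A, φ a = 0)
    {G : Type*} {n : Type*} [Fintype n] [DecidableEq n] (F : G → n → A)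
    (hspan : Submodule.span K (Set.range fun g => (fun c => φ (F g c))) = ⊤) :
    ∃ g : n → G, IsUnit (Matrix.det (Matrix.of fun a c => F (g a) c)) := by
  classical
  let e := Module.Basis.ofSpan hspan.ge
  have : Fintype ((linearIndepOn_empty K id).extend
      (Set.empty_subset (Set.range fun g => (fun c => φ (F g c))))) :=
    FiniteDimensional.fintypeBasisIndex e
  have hcard : Fintype.card n = Fintype.card ((linearIndepOn_empty K id).extend
      (Set.empty_subset (Set.range fun g => (fun c => φ (F g c))))) := by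
    rw [← Module.finrank_eq_card_basis e, Module.finrank_fintype_fun_eq_card]
  let eqv := Fintype.equivOfCardEq hcard
  have hmem : ∀ a : n, ∃ g : G, (fun c => φ (F g c)) = e (eqv a) := by
    intro a
    exact Module.Basis.ofSpan_subset hspan.ge ⟨eqv a, rfl⟩
  choose g hg using hmem
  refine ⟨g, ?_⟩
  have hli : LinearIndependent K (fun a => e (eqv a)) :=
    e.linearIndependent.comp eqv eqv.injective
  have hrow : (Matrix.of fun a c => φ (F (g a) c) : Matrix n n K).row = fun a => e (eqv a) := by
    funext a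
    rw [← hg a]
    rfl
  have hunit : IsUnit (Matrix.of fun a c => φ (F (g a) c) : Matrix n n K) := by
    rw [← Matrix.linearIndependent_rows_iff_isUnit, hrow]
    exact hli
  have hdet : IsUnit (Matrix.det (Matrix.of fun a c => φ (F (g a) c) : Matrix n n K)) :=
    (Matrix.isUnit_iff_isUnit_det _).mp hunit
  have hmap : (Matrix.of fun a c => φ (F (g a) c) : Matrix n n K) =
      φ.mapMatrix (Matrix.of fun a c => F (g a) c) := by
    ext a c
    rfl
  rw [hmap, ← RingHom.map_det] at hdet
  by_contra hnu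
  have hm : Matrix.det (Matrix.of fun a c => F (g a) c) ∈ IsLocalRing.maximalIdeal A := by
    rw [IsLocalRing.mem_maximalIdeal]
    exact hnu
  rw [hφ _ hm] at hdet
  exact not_isUnit_zero hdet

end Det

section Key

/-- Key lemma (K), generic monoid version. -/
theorem s31_key_gen {A : Type} [CommRing A] [IsLocalRing A] {V : Type} [AddCommGroup V]
    [Module A V] [Module.Free A V] [Module.Finite A V] (hV : Module.finrank A V = 2)
    {G : Type*} [Monoid G] (ρ : G →* Module.End A V)
    (K : Type) [Field K] [IsAlgClosed K] [Algebra (IsLocalRing.ResidueField A) K]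
    (hirr : ∀ W : Submodule K
        (K ⊗[IsLocalRing.ResidueField A] (IsLocalRing.ResidueField A ⊗[A] V)),
      (∀ g : G, ∀ x ∈ W,
        ((ρ g).baseChange (IsLocalRing.ResidueField A)).baseChange K x ∈ W) → W = ⊥ ∨ W = ⊤)
    (τ : G) (hτ : ∀ g : G, LinearMap.trace A V (ρ (g * τ)) = LinearMap.trace A V (ρ g)) :
    ρ τ = 1 := by
  classical
  let b : Module.Basis (Fin 2) A V := Module.finBasisOfFinrankEq A V hV
  let bk : Module.Basis (Fin 2) (IsLocalRing.ResidueField A)
      (IsLocalRing.ResidueField A ⊗[A] V) := Algebra.TensorProduct.basis (IsLocalRing.ResidueField A) b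
  let bK : Module.Basis (Fin 2) K
      (K ⊗[IsLocalRing.ResidueField A] (IsLocalRing.ResidueField A ⊗[A] V)) :=
    Algebra.TensorProduct.basis K bk
  let φ : A →+* K := (algebraMap (IsLocalRing.ResidueField A) K).comp (IsLocalRing.residue A)
  have hφ : ∀ a ∈ IsLocalRing.maximalIdeal A, φ a = 0 := by
    intro a ha
    show algebraMap (IsLocalRing.ResidueField A) K (IsLocalRing.residue A a) = 0
    rw [(IsLocalRing.residue_eq_zero_iff a).mpr ha, map_zero]
  let ρK : G →* Module.End K
      (K ⊗[IsLocalRing.ResidueField A] (IsLocalRing.ResidueField A ⊗[A] V)) :=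
    { toFun := fun g => ((ρ g).baseChange (IsLocalRing.ResidueField A)).baseChange K
      map_one' := by rw [map_one, LinearMap.baseChange_one, LinearMap.baseChange_one]
      map_mul' := fun g h => by rw [map_mul, LinearMap.baseChange_mul, LinearMap.baseChange_mul] }
  have hfr : Module.finrank K
      (K ⊗[IsLocalRing.ResidueField A] (IsLocalRing.ResidueField A ⊗[A] V)) = 2 := by
    rw [Module.finrank_baseChange, Module.finrank_baseChange, hV]
  have hB : Algebra.adjoin K (Set.range ρK) = ⊤ :=
    s31_burnside_two hfr _ (fun W hW => hirr W (fun g x hx =>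
      hW (ρK g) (Algebra.subset_adjoin ⟨g, rfl⟩) x hx))
  have hspanEnd : Submodule.span K (Set.range ρK) = ⊤ := by
    have h := Algebra.adjoin_eq_span K (Set.range ρK)
    rw [hB, ← MonoidHom.coe_mrange, Submonoid.closure_eq, MonoidHom.coe_mrange] at h
    rw [← h]
    rfl
  -- coordinates
  let F : G → Fin 2 × Fin 2 → A := fun g c => LinearMap.toMatrix b b (ρ g) c.1 c.2
  let Θ : Module.End K (K ⊗[IsLocalRing.ResidueField A] (IsLocalRing.ResidueField A ⊗[A] V))
      ≃ₗ[K] (Fin 2 × Fin 2 → K) :=
    (LinearMap.toMatrix bK bK).trans (LinearEquiv.curry K K (Fin 2) (Fin 2)).symm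
  have hΘ : (fun g => (fun c : Fin 2 × Fin 2 => φ (F g c))) = (Θ : _ → _) ∘ ρK := by
    funext g c
    show φ (LinearMap.toMatrix b b (ρ g) c.1 c.2) =
      LinearMap.toMatrix bK bK
        (((ρ g).baseChange (IsLocalRing.ResidueField A)).baseChange K) c.1 c.2
    rw [LinearMap.toMatrix_baseChange, LinearMap.toMatrix_baseChange]
    rfl
  have hspan : Submodule.span K (Set.range fun g => (fun c : Fin 2 × Fin 2 => φ (F g c))) = ⊤ := by
    rw [hΘ, Set.range_comp]
    have h := Submodule.map_span Θ.toLinearMap (Set.range ρK)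
    rw [hspanEnd, Submodule.map_top, LinearEquiv.range] at h
    exact h.symm
  obtain ⟨gs, hgs⟩ := s31_exists_unit_det φ hφ F hspan
  -- the linear system
  have htr : ∀ g : G, Matrix.trace (LinearMap.toMatrix b b (ρ g) *
      LinearMap.toMatrix b b (ρ τ - 1)) = 0 := by
    intro g
    rw [← LinearMap.toMatrix_mul, ← LinearMap.trace_eq_matrix_trace A b, mul_sub, mul_one,
      map_sub, ← map_mul, hτ g, sub_self]
  have hmv : (Matrix.of fun a c => F (gs a) c : Matrix (Fin 2 × Fin 2) (Fin 2 × Fin 2) A).mulVec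
      (fun c => LinearMap.toMatrix b b (ρ τ - 1) c.2 c.1) = 0 := by
    funext a
    have h := htr (gs a)
    rw [Matrix.trace] at h
    simp only [Matrix.diag_apply, Matrix.mul_apply] at h
    rw [Matrix.mulVec, dotProduct, Fintype.sum_prod_type]
    exact h
  have hzero : (fun c : Fin 2 × Fin 2 => LinearMap.toMatrix b b (ρ τ - 1) c.2 c.1) = 0 := by
    have h := congrArg ((Matrix.of fun a c => F (gs a) c :
      Matrix (Fin 2 × Fin 2) (Fin 2 × Fin 2) A)⁻¹).mulVec hmv
    rw [Matrix.mulVec_mulVec, Matrix.nonsing_inv_mul _ hgs, Matrix.one_mulVec,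
      Matrix.mulVec_zero] at h
    exact h
  have hM : LinearMap.toMatrix b b (ρ τ - 1) = 0 := by
    ext i j
    exact congrFun hzero (j, i)
  have h0 : ρ τ - 1 = 0 := (LinearMap.toMatrix b b).injective (by rw [hM, map_zero])
  exact sub_eq_zero.mp h0

/-- Key lemma (K) for `GaloisRepAdic`. -/
theorem s31_key {A : Type} [CommRing A] [IsLocalRing A] (ρ : GaloisRepAdic A)
    (habs : ρ.residual.IsAbsolutelyIrreducible)
    (τ : AlgebraicClosure ℚ ≃ₐ[ℚ] AlgebraicClosure ℚ)
    (hτ : ∀ g : AlgebraicClosure ℚ ≃ₐ[ℚ] AlgebraicClosure ℚ, ρ.trace (g * τ) = ρ.trace g) :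
    ρ.ρ τ = 1 :=
  s31_key_gen ρ.finrank_eq ρ.ρ (AlgebraicClosure (IsLocalRing.ResidueField A)) habs τ hτ

/-- Key lemma (K), adic form: trace congruences modulo every power of the maximal ideal. -/
theorem s31_key_adic {A : Type} [CommRing A] [IsLocalRing A]
    [IsHausdorff (IsLocalRing.maximalIdeal A) A] (ρ : GaloisRepAdic A)
    (habs : ρ.residual.IsAbsolutelyIrreducible)
    (τ : AlgebraicClosure ℚ ≃ₐ[ℚ] AlgebraicClosure ℚ)
    (hτ : ∀ (n : ℕ) (g : AlgebraicClosure ℚ ≃ₐ[ℚ] AlgebraicClosure ℚ),
      ρ.trace (g * τ) - ρ.trace g ∈ IsLocalRing.maximalIdeal A ^ n) :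
    ρ.ρ τ = 1 := by
  refine s31_key ρ habs τ (fun g => ?_)
  have h : ρ.trace (g * τ) - ρ.trace g = 0 := by
    refine IsHausdorff.haus' (I := IsLocalRing.maximalIdeal A) _ (fun n => ?_)
    rw [SModEq.zero, smul_eq_mul, Ideal.mul_top]
    exact hτ n g
  exact sub_eq_zero.mp h

/-- Unramifiedness from trace invariance under inertia. -/
theorem s31_unramified_of_trace {A : Type} [CommRing A] [IsLocalRing A] (ρ : GaloisRepAdic A)
    (habs : ρ.residual.IsAbsolutelyIrreducible) (q : ℕ)
    (hτ : ∀ P : ValuationSubring (AlgebraicClosure ℚ), P.LiesOverPrime q →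
      ∀ τ ∈ P.inertiaSubgroupIn ℚ, ∀ g : AlgebraicClosure ℚ ≃ₐ[ℚ] AlgebraicClosure ℚ,
        ρ.trace (g * τ) = ρ.trace g) :
    ρ.IsUnramifiedAt q :=
  fun P hP τ hτP => s31_key ρ habs τ (hτ P hP τ hτP)

/-- Unramifiedness from trace congruences under inertia (adic form). -/
theorem s31_unramified_of_trace_adic {A : Type} [CommRing A] [IsLocalRing A]
    [IsHausdorff (IsLocalRing.maximalIdeal A) A] (ρ : GaloisRepAdic A)
    (habs : ρ.residual.IsAbsolutelyIrreducible) (q : ℕ)
    (hτ : ∀ P : ValuationSubring (AlgebraicClosure ℚ), P.LiesOverPrime q →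
      ∀ τ ∈ P.inertiaSubgroupIn ℚ, ∀ (n : ℕ) (g : AlgebraicClosure ℚ ≃ₐ[ℚ] AlgebraicClosure ℚ),
        ρ.trace (g * τ) - ρ.trace g ∈ IsLocalRing.maximalIdeal A ^ n) :
    ρ.IsUnramifiedAt q :=
  fun P hP τ hτP => s31_key_adic ρ habs τ (hτ P hP τ hτP)

end Key

end Fermat.Agent.S31
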