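import Mathlib

/-!
# S31, block (T), leaf (TC): traces of endomorphisms close to zero

If `f` maps a finite free module `V` into `I • V`, then `trace (a * f) ∈ I` for every
endomorphism `a`.
-/

set_option autoImplicit false

namespace Fermat.Agent.S31

/-- Coordinates of an element of `I • V` lie in `I`. -/
theorem s31_tc_repr_mem {A : Type*} [CommRing A] (I : Ideal A) {V : Type*} [AddCommGroup V]
    [Module A V] {ι : Type*} (b : Module.Basis ι A V) (x : V)
    (hx : x ∈ I • (⊤ : Submodule A V)) (i : ι) : b.repr x i ∈ I := by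
  refine Submodule.smul_induction_on (p := fun x => b.repr x i ∈ I) hx ?_ ?_
  · intro r hr n _
    rw [map_smul, Finsupp.smul_apply, smul_eq_mul]
    exact I.mul_mem_right _ hr
  · intro x y hx hy
    rw [map_add, Finsupp.add_apply]
    exact I.add_mem hx hy

/-- An endomorphism maps `I • V` into itself. -/
theorem s31_tc_map_mem {A : Type*} [CommRing A] (I : Ideal A) {V : Type*} [AddCommGroup V]
    [Module A V] (a : Module.End A V) (x : V) (hx : x ∈ I • (⊤ : Submodule A V)) :
    a x ∈ I • (⊤ : Submodule A V) := by
  refine Submodule.smul_induction_on (p := fun x => a x ∈ I • (⊤ : Submodule A V)) hx ?_ ?_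
  · intro r hr n _
    rw [map_smul]
    exact Submodule.smul_mem_smul hr Submodule.mem_top
  · intro x y hx hy
    rw [map_add]
    exact Submodule.add_mem _ hx hy

/-- **(TC)** If `f` maps `V` into `I • V`, then `trace (a * f) ∈ I`. -/
theorem s31_tc_trace_mem {A : Type*} [CommRing A] (I : Ideal A) {V : Type*} [AddCommGroup V]
    [Module A V] [Module.Free A V] [Module.Finite A V] (a f : Module.End A V)
    (hf : ∀ v, f v ∈ I • (⊤ : Submodule A V)) : LinearMap.trace A V (a * f) ∈ I := by
  classical
  rw [LinearMap.trace_eq_matrix_trace A (Module.Free.chooseBasis A V), Matrix.trace]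
  refine I.sum_mem fun i _ => ?_
  rw [Matrix.diag_apply, LinearMap.toMatrix_apply]
  exact s31_tc_repr_mem I _ _ (s31_tc_map_mem I a _ (hf _)) i

/-- If `f - 1` maps `V` into `I • V`, then `trace (a * f) - trace a ∈ I`. -/
theorem s31_tc_trace_sub_mem {A : Type*} [CommRing A] (I : Ideal A) {V : Type*}
    [AddCommGroup V] [Module A V] [Module.Free A V] [Module.Finite A V] (a f : Module.End A V)
    (hf : ∀ v, f v - v ∈ I • (⊤ : Submodule A V)) :
    LinearMap.trace A V (a * f) - LinearMap.trace A V a ∈ I := by
  have h := s31_tc_trace_mem I a (f - 1) (fun v => by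
    rw [LinearMap.sub_apply, Module.End.one_apply]; exact hf v)
  rwa [mul_sub, mul_one, map_sub] at h

end Fermat.Agent.S31
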