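import Mathlib
import Fermat.Agent.S55.IfaceTwist
import Fermat.Agent.S29.Asm

/-!
# S31, block (T), leaf (CY): roots of unity of order prime to the residue characteristic

For `m` prime to `q` and a place `A` of `ℚ̄` over `q`:

* `s31_cy_root_inj` : two `m`-th roots of unity congruent modulo `A` are equal;
* `s31_cy_frob_root` : a Frobenius lift at `A` raises `m`-th roots of unity to the `q`-th power;
* `s31_cy_inertia_root` : the inertia group at `A` fixes the `m`-th roots of unity.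
-/

set_option autoImplicit false

namespace Fermat.Agent.S31

local notation "Qb" => AlgebraicClosure ℚ
local notation "Γ" => (AlgebraicClosure ℚ ≃ₐ[ℚ] AlgebraicClosure ℚ)

/-- An `m`-th root of unity congruent to `1` modulo a place over `q`, `q` prime to `m`, is `1`. -/
theorem s31_cy_root_one (m q : ℕ) (hm : m ≠ 0) (hmq : Nat.Coprime m q)
    (A : ValuationSubring Qb) (hA : A.LiesOverPrime q) (η : Qb) (hη : η ^ m = 1)
    (hsub : η - 1 ∈ A.nonunits) : η = 1 := by
  by_contra hη1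
  have hdm : orderOf η ∣ m := orderOf_dvd_of_pow_eq_one hη
  have hηd : η ^ orderOf η = 1 := pow_orderOf_eq_one η
  have hηA : η ∈ A := Fermat.Agent.S55.pt_rootOfUnity_mem A m hm η hη
  have hsum : ∑ i ∈ Finset.range (orderOf η), η ^ i = 0 := by
    have h1 : (η - 1) * ∑ i ∈ Finset.range (orderOf η), η ^ i = 0 := by
      rw [mul_geom_sum, hηd, sub_self]
    rcases mul_eq_zero.mp h1 with h | h
    · exact absurd (sub_eq_zero.mp h) hη1
    · exact h
  have hpm : ((orderOf η : ℕ) : Qb) ∈ A.nonunits := by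
    have h1 : ((orderOf η : ℕ) : Qb) = - ∑ i ∈ Finset.range (orderOf η), (η ^ i - 1) := by
      rw [Finset.sum_sub_distrib, hsum]
      simp
    rw [h1]
    refine neg_mem (sum_mem fun i _ => ?_)
    have h2 : η ^ i - 1 = (η - 1) * ∑ j ∈ Finset.range i, η ^ j := by
      rw [mul_geom_sum]
    rw [h2]
    exact Fermat.Agent.S55.pt_nonunits_mul_mem A _ _ hsub (sum_mem fun j _ => pow_mem hηA j)
  have hqm : (q : Qb) ∈ A.nonunits := hA
  have hcop : IsCoprime ((orderOf η : ℕ) : ℤ) (q : ℤ) :=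
    Nat.isCoprime_iff_coprime.mpr (Nat.Coprime.coprime_dvd_left hdm hmq)
  obtain ⟨a, b, hab⟩ := hcop
  have h1 : (1 : Qb) ∈ A.nonunits := by
    have h2 : (1 : Qb) = a • ((orderOf η : ℕ) : Qb) + b • (q : Qb) := by
      have := congrArg (Int.cast : ℤ → Qb) hab
      push_cast at this
      rw [zsmul_eq_mul, zsmul_eq_mul]
      exact this.symm
    rw [h2]
    exact add_mem (zsmul_mem hpm a) (zsmul_mem hqm b)
  rw [ValuationSubring.mem_nonunits_iff, map_one] at h1
  exact lt_irrefl _ h1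

/-- Two `m`-th roots of unity which are congruent modulo a place over `q`, `q` prime to `m`,
are equal. -/
theorem s31_cy_root_inj (m q : ℕ) (hm : m ≠ 0) (hmq : Nat.Coprime m q)
    (A : ValuationSubring Qb) (hA : A.LiesOverPrime q) (u v : Qb) (hu : u ^ m = 1)
    (hv : v ^ m = 1) (huv : u - v ∈ A.nonunits) : u = v := by
  have hv0 : v ≠ 0 := by
    rintro rfl
    rw [zero_pow hm] at hv
    exact zero_ne_one hv
  have hvinv : v⁻¹ ∈ A := Fermat.Agent.S55.pt_rootOfUnity_mem A m hm v⁻¹ (by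
    rw [inv_pow, hv, inv_one])
  have hηm : (u * v⁻¹) ^ m = 1 := by rw [mul_pow, hu, inv_pow, hv, inv_one, mul_one]
  have hsub : u * v⁻¹ - 1 ∈ A.nonunits := by
    have h2 := Fermat.Agent.S55.pt_nonunits_mul_mem A _ _ huv hvinv
    have h3 : (u - v) * v⁻¹ = u * v⁻¹ - 1 := by
      rw [sub_mul, mul_inv_cancel₀ hv0]
    rw [h3] at h2
    exact h2
  exact (mul_inv_eq_one₀ hv0).mp (s31_cy_root_one m q hm hmq A hA _ hηm hsub)

/-- **(CY-Frob)** A Frobenius lift at `ℓ` prime to `m` acts on the `m`-th roots of unity by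
`t ↦ t ^ ℓ`. -/
theorem s31_cy_frob_root (m ℓ : ℕ) (hm : m ≠ 0) (hmℓ : Nat.Coprime m ℓ)
    (A : ValuationSubring Qb) (hA : A.LiesOverPrime ℓ) (σ : Γ) (h : A.IsFrobeniusAt σ ℓ)
    (t : Qb) (ht : t ^ m = 1) : σ t = t ^ ℓ := by
  have htA : t ∈ A := Fermat.Agent.S55.pt_rootOfUnity_mem A m hm t ht
  refine s31_cy_root_inj m ℓ hm hmℓ A hA (σ t) (t ^ ℓ) ?_ ?_
    (Fermat.Agent.S29.s29_asm_frob_mem h t htA)
  · rw [← map_pow, ht, map_one]
  · rw [← pow_mul, mul_comm, pow_mul, ht, one_pow]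

/-- Powers of a Frobenius lift at `ℓ` prime to `m` on `m`-th roots of unity. -/
theorem s31_cy_frob_pow_root (m ℓ : ℕ) (hm : m ≠ 0) (hmℓ : Nat.Coprime m ℓ)
    (A : ValuationSubring Qb) (hA : A.LiesOverPrime ℓ) (σ : Γ) (h : A.IsFrobeniusAt σ ℓ)
    (t : Qb) (ht : t ^ m = 1) (j : ℕ) : (σ ^ j) t = t ^ (ℓ ^ j) := by
  induction j generalizing t with
  | zero => rw [pow_zero, pow_zero, pow_one]; rfl
  | succ j ih =>
    rw [pow_succ, AlgEquiv.mul_apply, s31_cy_frob_root m ℓ hm hmℓ A hA σ h t ht,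
      ih (t ^ ℓ) (by rw [← pow_mul, mul_comm, pow_mul, ht, one_pow]), ← pow_mul, pow_succ']

/-- **(CY-inertia)** The inertia group at a place over `q` prime to `m` fixes the `m`-th roots
of unity. -/
theorem s31_cy_inertia_root (m q : ℕ) (hm : m ≠ 0) (hmq : Nat.Coprime m q)
    (A : ValuationSubring Qb) (hA : A.LiesOverPrime q) (τ : Γ)
    (hτ : τ ∈ A.inertiaSubgroupIn ℚ) (t : Qb) (ht : t ^ m = 1) : τ t = t := by
  have htA : t ∈ A := Fermat.Agent.S55.pt_rootOfUnity_mem A m hm t ht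
  refine s31_cy_root_inj m q hm hmq A hA (τ t) t ?_ ht
    (((Fermat.Agent.S55.pt_mem_inertia_iff A τ).mp hτ).2 t htA)
  rw [← map_pow, ht, map_one]

/-- A primitive `m`-th root of unity in `ℚ̄`. -/
theorem s31_cy_exists_primitive (m : ℕ) (hm : m ≠ 0) : ∃ ζ : Qb, IsPrimitiveRoot ζ m := by
  have : NeZero ((m : ℕ) : Qb) := ⟨Nat.cast_ne_zero.mpr hm⟩
  exact HasEnoughRootsOfUnity.exists_primitiveRoot Qb m

/-- Exponents of a primitive `m`-th root of unity are determined modulo `m`. -/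
theorem s31_cy_pow_eq (m : ℕ) (ζ : Qb) (hζ : IsPrimitiveRoot ζ m) (hm : m ≠ 0) (a b : ℕ)
    (h : ζ ^ a = ζ ^ b) : a ≡ b [MOD m] := by
  have hζ0 : ζ ≠ 0 := hζ.ne_zero hm
  have key : ∀ a b : ℕ, a ≤ b → ζ ^ a = ζ ^ b → a ≡ b [MOD m] := by
    intro a b hab h
    have h1 : ζ ^ (b - a) = 1 := by
      have h2 : ζ ^ a * ζ ^ (b - a) = ζ ^ a * 1 := by
        rw [← pow_add, Nat.add_sub_cancel' hab, mul_one, h]
      exact mul_left_cancel₀ (pow_ne_zero a hζ0) h2
    exact (Nat.modEq_iff_dvd' hab).mpr ((hζ.pow_eq_one_iff_dvd _).mp h1)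
  rcases le_total a b with hab | hab
  · exact key a b hab h
  · exact (key b a hab h.symm).symm

end Fermat.Agent.S31
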