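import Mathlib
import Fermat.Agent.S18.NumField
import Fermat.Agent.S29.Asm
import Fermat.Agent.S29.WAsmAbs
import Fermat.Agent.S31.Dickson
import Fermat.Agent.S31.Cyc

/-!
# S31, block (T): the abstract trace congruence

Abstract form of the congruence behind the trace invariance.  `M` is an abelian group killed by
`p ^ n` with commuting actions of `Γ = Gal(ℚ̄/ℚ)` and of operators `T_ℓ` (smooth, unramified
outside `S`, Eichler–Shimura relation at Frobenius lifts), `ι : Λ → M` is additive with kernel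
`p ^ n Λ` and intertwines operators `Tc ℓ` on the finitely generated group `Λ` with the `T_ℓ`.
Then for `τ` in an inertia group at `q ∉ S` and any `g`, weak Chebotarev produces Frobenius lifts
`σ`, `σ'` at `ℓ, ℓ' ∉ S` and exponents `j`, `j'` approximating `g` and `g τ` on a given finite
level, such that `D_j(Tc ℓ, ℓ) - D_j'(Tc ℓ', ℓ')` maps `Λ` into `p ^ n Λ` (`s31_ti_abs`).
-/

set_option autoImplicit false

open Fermat.Agent.S18 Fermat.Agent.S29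

namespace Fermat.Agent.S31

local notation "Qb" => AlgebraicClosure ℚ
local notation "Γ" => (AlgebraicClosure ℚ ≃ₐ[ℚ] AlgebraicClosure ℚ)

/-- `a` commutes with the Dickson elements of `t`, `d` if it commutes with `t` and `d`. -/
theorem s31_dk_commute {B : Type*} [Ring B] (a t d : B) (ht : Commute a t) (hd : Commute a d)
    (i : ℕ) : Commute a (s31_dk t d i) := by
  induction i using Nat.twoStepInduction with
  | zero => rw [s31_dk_zero]; exact Commute.ofNat_right a 2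
  | one => rw [s31_dk_one]; exact ht
  | more i h1 h2 =>
    rw [s31_dk_add_two]
    exact (ht.mul_right h2).sub_right (hd.mul_right h1)

/-- Dickson elements are intertwined by additive maps intertwining `t` and `d`. -/
theorem s31_dk_intertwine {Λ M : Type*} [AddCommGroup Λ] [AddCommGroup M] (ι : Λ →+ M)
    (t d : Module.End ℤ Λ) (t' d' : Module.End ℤ M) (ht : ∀ ψ, ι (t ψ) = t' (ι ψ))
    (hd : ∀ ψ, ι (d ψ) = d' (ι ψ)) (i : ℕ) (ψ : Λ) :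
    ι (s31_dk t d i ψ) = s31_dk t' d' i (ι ψ) := by
  induction i using Nat.twoStepInduction generalizing ψ with
  | zero =>
    rw [s31_dk_zero, s31_dk_zero, ← one_add_one_eq_two, ← one_add_one_eq_two,
      LinearMap.add_apply, LinearMap.add_apply, Module.End.one_apply, Module.End.one_apply,
      map_add]
  | one => rw [s31_dk_one, s31_dk_one]; exact ht ψ
  | more i h1 h2 =>
    rw [s31_dk_add_two, s31_dk_add_two, LinearMap.sub_apply, LinearMap.sub_apply,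
      Module.End.mul_apply, Module.End.mul_apply, Module.End.mul_apply, Module.End.mul_apply,
      map_sub, ht, hd, h1, h2]

/-- Multiples of an element killed by `m` depend on the multiplier modulo `m` only. -/
theorem s31_ti_modEq_nsmul {M : Type*} [AddCommGroup M] {a b m : ℕ} (h : a ≡ b [MOD m])
    {x : M} (hx : m • x = 0) : a • x = b • x := by
  have key : ∀ c : ℕ, c • x = (c % m) • x := by
    intro c
    conv_lhs => rw [← Nat.mod_add_div c m]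
    rw [add_nsmul, mul_nsmul, hx, nsmul_zero, add_zero]
  rw [key a, key b, h]

/-- A finite-dimensional subfield of `ℚ̄` lies in a finite Galois subfield. -/
theorem s31_ti_exists_galois_ge (L : IntermediateField ℚ Qb) [FiniteDimensional ℚ L] :
    ∃ K : IntermediateField ℚ Qb, s18_d1_IsGaloisNF K ∧ L ≤ K := by
  classical
  have key : ∀ s : Finset Qb, ∃ K : IntermediateField ℚ Qb, s18_d1_IsGaloisNF K ∧
      ∀ x ∈ s, x ∈ K := by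
    intro s
    induction s using Finset.induction_on with
    | empty =>
      obtain ⟨K₁, h₁, -⟩ := s18_d1_exists_galois (0 : Qb)
      exact ⟨K₁, h₁, fun x hx => absurd hx (Finset.notMem_empty x)⟩
    | insert a s _ ih =>
      obtain ⟨K₁, h₁, hK₁⟩ := s18_d1_exists_galois a
      obtain ⟨K₂, h₂, hK₂⟩ := ih
      refine ⟨K₁ ⊔ K₂, h₁.sup h₂, fun x hx => ?_⟩
      rcases Finset.mem_insert.mp hx with rfl | hx
      · exact (le_sup_left : K₁ ≤ K₁ ⊔ K₂) hK₁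
      · exact (le_sup_right : K₂ ≤ K₁ ⊔ K₂) (hK₂ x hx)
  let b := Module.finBasis ℚ L
  obtain ⟨K, hK, hKb⟩ := key (Finset.univ.image fun i => ((b i : L) : Qb))
  refine ⟨K, hK, fun x hx => ?_⟩
  have h1 : (⟨x, hx⟩ : L) = ∑ i, b.repr ⟨x, hx⟩ i • b i := (b.sum_repr ⟨x, hx⟩).symm
  have h2 : x = ∑ i, b.repr ⟨x, hx⟩ i • ((b i : L) : Qb) := by
    have h3 := congrArg (fun y : L => (y : Qb)) h1
    simp only [AddSubmonoidClass.coe_finsetSum, IntermediateField.coe_smul] at h3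
    exact h3
  rw [h2]
  refine sum_mem fun i _ => ?_
  have h4 : ((b i : L) : Qb) ∈ K := hKb _ (Finset.mem_image.mpr ⟨i, Finset.mem_univ i, rfl⟩)
  rw [Algebra.smul_def]
  exact mul_mem (K.algebraMap_mem _) h4

/-- One Frobenius datum: if `γ` agrees with `σ ^ j` on a finite Galois level `K` whose fixing
subgroup fixes `ι(Λ)`, and `σ² - T_ℓ σ + ℓ = 0` on `M`, then
`γ (ι (D_j(Tc, ℓ) ψ)) = γ² (ι ψ) + ℓ ^ j • ι ψ`. -/
theorem s31_ti_frob {M : Type*} [AddCommGroup M] (gM : Γ →* Module.End ℤ M)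
    (TMℓ : Module.End ℤ M) (hGH : ∀ (σ : Γ) (x : M), TMℓ (gM σ x) = gM σ (TMℓ x))
    {Λ : Type*} [AddCommGroup Λ] (Tcℓ : Module.End ℤ Λ) (ι : Λ →+ M)
    (hιT : ∀ ψ : Λ, ι (Tcℓ ψ) = TMℓ (ι ψ))
    (K : IntermediateField ℚ Qb) (hK : s18_d1_IsGaloisNF K)
    (hKfix : ∀ σ : Γ, (∀ c ∈ K, σ c = c) → ∀ ψ : Λ, gM σ (ι ψ) = ι ψ)
    (ℓ : ℕ) (σ : Γ) (hES : ∀ x : M, gM σ (gM σ x) - TMℓ (gM σ x) + ℓ • x = 0)
    (j : ℕ) (γ : Γ) (hγ : ∀ x ∈ K, γ x = (σ ^ j) x) (ψ : Λ) :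
    gM γ (ι (s31_dk Tcℓ ((ℓ : ℕ) : Module.End ℤ Λ) j ψ))
      = gM (γ * γ) (ι ψ) + (ℓ ^ j) • ι ψ := by
  have hc : Commute (gM σ) TMℓ := by
    refine LinearMap.ext fun x => ?_
    rw [Module.End.mul_apply, Module.End.mul_apply]
    exact (hGH σ x).symm
  have h0 : gM σ * gM σ - TMℓ * gM σ + ((ℓ : ℕ) : Module.End ℤ M) = 0 := by
    refine LinearMap.ext fun x => ?_
    rw [LinearMap.add_apply, LinearMap.sub_apply, Module.End.mul_apply, Module.End.mul_apply,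
      Module.End.natCast_apply, LinearMap.zero_apply]
    exact hES x
  have hop := s31_dk_op (gM σ) TMℓ ((ℓ : ℕ) : Module.End ℤ M) hc h0 j
  -- `γ⁻¹ σ ^ j` fixes `K`
  have hh : ∀ c ∈ K, (γ⁻¹ * σ ^ j) c = c := by
    intro c hc'
    rw [AlgEquiv.mul_apply, ← hγ c hc']
    exact γ.symm_apply_apply c
  have hσj : σ ^ j = γ * (γ⁻¹ * σ ^ j) := by rw [mul_inv_cancel_left]
  have e1 : (gM σ ^ j) (ι ψ) = gM γ (ι ψ) := by
    rw [← map_pow, hσj, map_mul, Module.End.mul_apply, hKfix _ hh ψ]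
  have e2 : (gM σ ^ (2 * j)) (ι ψ) = gM (γ * γ) (ι ψ) := by
    have hconj := s29_wa_conj_fix hK (γ⁻¹ * σ ^ j) γ hh
    have h3 : σ ^ (2 * j) = γ * γ * (γ⁻¹ * (γ⁻¹ * σ ^ j) * γ) * (γ⁻¹ * σ ^ j) := by
      rw [two_mul, pow_add]
      simp only [mul_assoc, mul_inv_cancel_left]
    rw [← map_pow, h3, map_mul, map_mul, Module.End.mul_apply, Module.End.mul_apply,
      hKfix _ hh ψ, hKfix _ hconj ψ]
  have e3 := congrArg (fun f : Module.End ℤ M => f (ι ψ)) hop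
  simp only [Module.End.mul_apply, LinearMap.add_apply] at e3
  rw [e1, e2] at e3
  have hcomm : Commute (gM γ) (s31_dk TMℓ ((ℓ : ℕ) : Module.End ℤ M) j) :=
    s31_dk_commute _ _ _ (LinearMap.ext fun x => by
      rw [Module.End.mul_apply, Module.End.mul_apply]
      exact (hGH γ x).symm) (Nat.commute_cast _ _) j
  have e4 : s31_dk TMℓ ((ℓ : ℕ) : Module.End ℤ M) j (gM γ (ι ψ))
      = gM γ (s31_dk TMℓ ((ℓ : ℕ) : Module.End ℤ M) j (ι ψ)) := by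
    rw [← Module.End.mul_apply, ← Module.End.mul_apply, hcomm.eq]
  have e5 : ι (s31_dk Tcℓ ((ℓ : ℕ) : Module.End ℤ Λ) j ψ)
      = s31_dk TMℓ ((ℓ : ℕ) : Module.End ℤ M) j (ι ψ) :=
    s31_dk_intertwine ι _ _ _ _ hιT (fun ψ => by
      rw [Module.End.natCast_apply, Module.End.natCast_apply, map_nsmul]) j ψ
  rw [e5, ← e4, e3, ← Nat.cast_pow, Module.End.natCast_apply]

/-- **Abstract trace congruence.** -/
theorem s31_ti_abs (p n : ℕ) (hp : p.Prime) (S : Finset ℕ) (hpS : p ∈ S)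
    (hcheb : s29_asm_Cheb)
    {M : Type*} [AddCommGroup M] (gM : Γ →* Module.End ℤ M) (TM : Nat.Primes → Module.End ℤ M)
    (hGH : ∀ (ℓ : Nat.Primes) (σ : Γ) (x : M), TM ℓ (gM σ x) = gM σ (TM ℓ x))
    (hm : ∀ x : M, (p ^ n) • x = 0)
    (hfix : ∀ x : M, ∃ K₁ : IntermediateField ℚ Qb, s18_d1_IsGaloisNF K₁ ∧
      ∀ σ : Γ, (∀ c ∈ K₁, σ c = c) → gM σ x = x)
    (hunr : ∀ ℓ : ℕ, ℓ.Prime → ℓ ∉ S → ∀ A : ValuationSubring Qb, A.LiesOverPrime ℓ →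
      ∀ σ ∈ A.inertiaSubgroupIn ℚ, ∀ x : M, gM σ x = x)
    (hES : ∀ ℓ : Nat.Primes, (ℓ : ℕ) ∉ S → ∀ A : ValuationSubring Qb,
      A.LiesOverPrime ℓ → ∀ σ : Γ, A.IsFrobeniusAt σ ℓ → ∀ x : M,
        gM σ (gM σ x) - TM ℓ (gM σ x) + (ℓ : ℕ) • x = 0)
    {Λ : Type*} [AddCommGroup Λ] [Module.Finite ℤ Λ] (Tc : Nat.Primes → Module.End ℤ Λ)
    (ι : Λ →+ M)
    (hker : ∀ ψ : Λ, ι ψ = 0 → ∃ ψ' : Λ, ψ = (p ^ n) • ψ')
    (hιT : ∀ ℓ : Nat.Primes, (ℓ : ℕ) ∉ S → ∀ ψ : Λ, ι (Tc ℓ ψ) = TM ℓ (ι ψ))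
    (L : IntermediateField ℚ Qb) [FiniteDimensional ℚ L]
    (q : ℕ) (hq : q.Prime) (hqS : q ∉ S) (P : ValuationSubring Qb) (hP : P.LiesOverPrime q)
    (τ : Γ) (hτ : τ ∈ P.inertiaSubgroupIn ℚ) (g : Γ) :
    ∃ (ℓ ℓ' : Nat.Primes) (A A' : ValuationSubring Qb) (σ σ' : Γ) (j j' : ℕ),
      (ℓ : ℕ) ∉ S ∧ (ℓ' : ℕ) ∉ S ∧ A.LiesOverPrime ℓ ∧ A'.LiesOverPrime ℓ' ∧
      A.IsFrobeniusAt σ ℓ ∧ A'.IsFrobeniusAt σ' ℓ' ∧
      (∀ x ∈ L, g x = (σ ^ j) x) ∧ (∀ x ∈ L, (g * τ) x = (σ' ^ j') x) ∧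
      ∀ ψ : Λ, ∃ ψ' : Λ,
        (s31_dk (Tc ℓ) (((ℓ : ℕ) : ℕ) : Module.End ℤ Λ) j
          - s31_dk (Tc ℓ') (((ℓ' : ℕ) : ℕ) : Module.End ℤ Λ) j') ψ = (p ^ n) • ψ' := by
  classical
  have hm0 : p ^ n ≠ 0 := pow_ne_zero n hp.ne_zero
  -- (1) a finite Galois field whose fixing subgroup fixes `ι(Λ)`
  obtain ⟨s, hs⟩ := (Module.Finite.fg_top : (⊤ : Submodule ℤ Λ).FG)
  have key : ∀ s' : Finset Λ, ∃ K₀ : IntermediateField ℚ Qb, s18_d1_IsGaloisNF K₀ ∧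
      ∀ σ : Γ, (∀ c ∈ K₀, σ c = c) → ∀ e ∈ s', gM σ (ι e) = ι e := by
    intro s'
    induction s' using Finset.induction_on with
    | empty =>
      obtain ⟨K₁, h₁, -⟩ := s18_d1_exists_galois (0 : Qb)
      exact ⟨K₁, h₁, fun σ _ e he => absurd he (Finset.notMem_empty e)⟩
    | insert a s' _ ih =>
      obtain ⟨K₁, h₁, hK₁⟩ := hfix (ι a)
      obtain ⟨K₂, h₂, hK₂⟩ := ih
      refine ⟨K₁ ⊔ K₂, h₁.sup h₂, fun σ hσ e he => ?_⟩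
      rcases Finset.mem_insert.mp he with rfl | he
      · exact hK₁ σ (fun c hc => hσ c ((le_sup_left : K₁ ≤ K₁ ⊔ K₂) hc))
      · exact hK₂ σ (fun c hc => hσ c ((le_sup_right : K₂ ≤ K₁ ⊔ K₂) hc)) e he
  obtain ⟨K₀, hK₀G, hK₀fix⟩ := key s
  have hK₀all : ∀ σ : Γ, (∀ c ∈ K₀, σ c = c) → ∀ ψ : Λ, gM σ (ι ψ) = ι ψ := by
    intro σ hσ ψ
    have hψ : ψ ∈ Submodule.span ℤ (s : Set Λ) := by rw [hs]; exact Submodule.mem_top
    refine Submodule.span_induction (p := fun x _ => gM σ (ι x) = ι x) ?_ ?_ ?_ ?_ hψ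
    · intro e he
      exact hK₀fix σ hσ e he
    · rw [map_zero, map_zero]
    · intro x y _ _ hx hy
      rw [map_add, map_add, hx, hy]
    · intro c x _ hx
      rw [map_zsmul, map_zsmul, hx]
  -- (2) a primitive root of unity, (3) the level `L`
  obtain ⟨ζ, hζ⟩ := s31_cy_exists_primitive (p ^ n) hm0
  obtain ⟨Kζ, hKζG, hζK⟩ := s18_d1_exists_galois ζ
  obtain ⟨KL, hKLG, hLK⟩ := s31_ti_exists_galois_ge L
  -- (4) the common level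
  have hKG : s18_d1_IsGaloisNF (K₀ ⊔ Kζ ⊔ KL) := (hK₀G.sup hKζG).sup hKLG
  have hK₀K : K₀ ≤ K₀ ⊔ Kζ ⊔ KL := le_sup_left.trans le_sup_left
  have hKζK : Kζ ≤ K₀ ⊔ Kζ ⊔ KL := le_sup_right.trans le_sup_left
  have hKLK : KL ≤ K₀ ⊔ Kζ ⊔ KL := le_sup_right
  have : FiniteDimensional ℚ ↥(K₀ ⊔ Kζ ⊔ KL) := hKG.1
  obtain ⟨ℓ, A, σ, j, hℓ, hℓS, hA, hσ, hg⟩ := hcheb (K₀ ⊔ Kζ ⊔ KL) S g
  obtain ⟨ℓ', A', σ', j', hℓ', hℓ'S, hA', hσ', hg'⟩ := hcheb (K₀ ⊔ Kζ ⊔ KL) S (g * τ)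
  refine ⟨⟨ℓ, hℓ⟩, ⟨ℓ', hℓ'⟩, A, A', σ, σ', j, j', hℓS, hℓ'S, hA, hA', hσ, hσ',
    fun x hx => hg x (hKLK (hLK hx)), fun x hx => hg' x (hKLK (hLK hx)), fun ψ => ?_⟩
  have hKfix : ∀ σ : Γ, (∀ c ∈ K₀ ⊔ Kζ ⊔ KL, σ c = c) → ∀ ψ : Λ, gM σ (ι ψ) = ι ψ :=
    fun σ hσ ψ => hK₀all σ (fun c hc => hσ c (hK₀K hc)) ψ
  have h1 := s31_ti_frob gM (TM ⟨ℓ, hℓ⟩) (hGH ⟨ℓ, hℓ⟩) (Tc ⟨ℓ, hℓ⟩) ι (hιT ⟨ℓ, hℓ⟩ hℓS)
    (K₀ ⊔ Kζ ⊔ KL) hKG hKfix ℓ σ (hES ⟨ℓ, hℓ⟩ hℓS A hA σ hσ) j g hg ψ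
  have h2 := s31_ti_frob gM (TM ⟨ℓ', hℓ'⟩) (hGH ⟨ℓ', hℓ'⟩) (Tc ⟨ℓ', hℓ'⟩) ι
    (hιT ⟨ℓ', hℓ'⟩ hℓ'S) (K₀ ⊔ Kζ ⊔ KL) hKG hKfix ℓ' σ' (hES ⟨ℓ', hℓ'⟩ hℓ'S A' hA' σ' hσ') j'
    (g * τ) hg' ψ
  -- `τ` acts trivially on `M`
  have hτM : gM τ = 1 := LinearMap.ext fun x => hunr q hq hqS P hP τ hτ x
  have hgτ : gM (g * τ) = gM g := by rw [map_mul, hτM, mul_one]
  have hgτ2 : gM (g * τ * (g * τ)) = gM (g * g) := by
    rw [map_mul, hgτ, map_mul]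
  rw [hgτ, hgτ2] at h2
  -- the cyclotomic congruence
  have hζm : ζ ^ (p ^ n) = 1 := hζ.pow_eq_one
  have hne : ∀ r : ℕ, r.Prime → r ∉ S → Nat.Coprime (p ^ n) r := by
    intro r hr hrS
    refine Nat.Coprime.pow_left n ((Nat.coprime_primes hp hr).mpr ?_)
    rintro rfl
    exact hrS hpS
  have hc1 : g ζ = ζ ^ (ℓ ^ j) := by
    rw [hg ζ (hKζK hζK)]
    exact s31_cy_frob_pow_root (p ^ n) ℓ hm0 (hne ℓ hℓ hℓS) A hA σ hσ ζ hζm j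
  have hc2 : g ζ = ζ ^ (ℓ' ^ j') := by
    have h3 : (g * τ) ζ = g ζ := by
      rw [AlgEquiv.mul_apply, s31_cy_inertia_root (p ^ n) q hm0 (hne q hq hqS) P hP τ hτ ζ hζm]
    rw [← h3, hg' ζ (hKζK hζK)]
    exact s31_cy_frob_pow_root (p ^ n) ℓ' hm0 (hne ℓ' hℓ' hℓ'S) A' hA' σ' hσ' ζ hζm j'
  have hmod : ℓ ^ j ≡ ℓ' ^ j' [MOD p ^ n] :=
    s31_cy_pow_eq (p ^ n) ζ hζ hm0 _ _ (hc1.symm.trans hc2)
  have hsm : (ℓ ^ j) • ι ψ = (ℓ' ^ j') • ι ψ := s31_ti_modEq_nsmul hmod (hm (ι ψ))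
  -- conclusion
  have h4 : gM g (ι ((s31_dk (Tc ⟨ℓ, hℓ⟩) ((ℓ : ℕ) : Module.End ℤ Λ) j
      - s31_dk (Tc ⟨ℓ', hℓ'⟩) ((ℓ' : ℕ) : Module.End ℤ Λ) j') ψ)) = 0 := by
    rw [LinearMap.sub_apply, map_sub, map_sub, h1, h2, hsm, sub_self]
  have h5 : ι ((s31_dk (Tc ⟨ℓ, hℓ⟩) ((ℓ : ℕ) : Module.End ℤ Λ) j
      - s31_dk (Tc ⟨ℓ', hℓ'⟩) ((ℓ' : ℕ) : Module.End ℤ Λ) j') ψ) = 0 := by
    have h6 := congrArg (gM g⁻¹) h4
    rwa [← Module.End.mul_apply, ← map_mul, inv_mul_cancel, map_one, Module.End.one_apply,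
      map_zero] at h6
  exact hker _ h5

end Fermat.Agent.S31
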