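import Mathlib
import Fermat.Prelude.Def_GaloisRep_Adic
import Fermat.Prelude.Def_CuspForm_HeckeAlgebra
import Fermat.Agent.S29.WAsmJ
import Fermat.Agent.S29.HcCommute
import Fermat.Agent.S29.CohPar
import Fermat.Agent.S29.ParLattice
import Fermat.Agent.S37
import Fermat.Agent.S31.TraceCong
import Fermat.Agent.S31.TraceInvAbs

/-!
# S31, block (T): trace invariance, core

* `s31_ti_level` : the abstract congruence `s31_ti_abs` for `M = J₀(N)[p ^ n]` (Galois action,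
  Hecke operators; S37 gives the Eichler–Shimura relation and the triviality of inertia).
* `s31_ti_core` : `tr ρ(g τ) = tr ρ(g)` for `τ` in an inertia group at `q ∉ S`, from weak
  Chebotarev, the bridge maps `ι_n : Λ → J₀(N)[p ^ n]` at every level and the transfer of
  congruences from `End(Λ)` to the Hecke algebra (`hsat`).
-/

set_option autoImplicit false
set_option linter.style.haveILetI false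

open Polynomial AlgebraicCurve ModularCurve CongruenceSubgroup ModularCurve.Period
open Fermat.Agent.S18 Fermat.Agent.S29 Fermat.Agent.S37

noncomputable section

namespace Fermat.Agent.S31

local notation "Qb" => AlgebraicClosure ℚ
local notation "Γ" => (AlgebraicClosure ℚ ≃ₐ[ℚ] AlgebraicClosure ℚ)

/-- A prime outside `S` does not divide `N * p ^ n`. -/
theorem s31_ti_not_dvd (N p n : ℕ) (hp : p.Prime) (S : Finset ℕ) (hpS : p ∈ S)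
    (hNS : ∀ q : ℕ, q.Prime → q ∣ N → q ∈ S) (ℓ : ℕ) (hℓ : ℓ.Prime) (hℓS : ℓ ∉ S) :
    ¬ ℓ ∣ N * p ^ n := by
  intro h
  rcases (Nat.Prime.dvd_mul hℓ).mp h with h1 | h1
  · exact hℓS (hNS ℓ hℓ h1)
  · have h2 : ℓ ∣ p := hℓ.dvd_of_dvd_pow h1
    have h3 : ℓ = p := (Nat.prime_dvd_prime_iff_eq hℓ hp).mp h2
    exact hℓS (h3 ▸ hpS)

/-- **Level `n` congruence** on the lattice `Λ = parabolicHoms ℤ (Gamma0 N) ℤ`. -/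
theorem s31_ti_level (N : ℕ) [NeZero N] (p : ℕ) (hp : p.Prime) (S : Finset ℕ) (hpS : p ∈ S)
    (hNS : ∀ q : ℕ, q.Prime → q ∣ N → q ∈ S) (hcheb : s29_asm_Cheb) (n : ℕ)
    (ι : ↥(parabolicHoms ℤ (Gamma0 N) ℤ) →+ JZero N)
    (hι1 : ∀ ψ, (p ^ n) • ι ψ = 0)
    (hι2 : ∀ ψ, ι ψ = 0 → ∃ ψ', ψ = (p ^ n) • ψ')
    (hι3 : ∀ (ℓ : ℕ) (hℓ : ℓ.Prime) (hℓN : ¬ ℓ ∣ N), ¬ ℓ ∣ N * p → ∀ ψ,
      ι (s29_cp_Tpar N ℓ hℓ hℓN ℤ ℤ ψ) = heckeOperatorBar N ⟨ℓ, hℓ⟩ (ι ψ))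
    (L : IntermediateField ℚ Qb) [FiniteDimensional ℚ L]
    (q : ℕ) (hq : q.Prime) (hqS : q ∉ S) (P : ValuationSubring Qb) (hP : P.LiesOverPrime q)
    (τ : Γ) (hτ : τ ∈ P.inertiaSubgroupIn ℚ) (g : Γ) :
    ∃ (ℓ ℓ' : ℕ) (hℓ : ℓ.Prime) (hℓ' : ℓ'.Prime) (hℓN : ¬ ℓ ∣ N) (hℓ'N : ¬ ℓ' ∣ N)
      (A A' : ValuationSubring Qb) (σ σ' : Γ) (j j' : ℕ),
      ℓ ∉ S ∧ ℓ' ∉ S ∧ A.LiesOverPrime ℓ ∧ A'.LiesOverPrime ℓ' ∧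
      A.IsFrobeniusAt σ ℓ ∧ A'.IsFrobeniusAt σ' ℓ' ∧
      (∀ x ∈ L, g x = (σ ^ j) x) ∧ (∀ x ∈ L, (g * τ) x = (σ' ^ j') x) ∧
      ∀ ψ : ↥(parabolicHoms ℤ (Gamma0 N) ℤ), ∃ ψ' : ↥(parabolicHoms ℤ (Gamma0 N) ℤ),
        (s31_dk (s29_cp_Tpar N ℓ hℓ hℓN ℤ ℤ)
            ((ℓ : ℕ) : Module.End ℤ ↥(parabolicHoms ℤ (Gamma0 N) ℤ)) j
          - s31_dk (s29_cp_Tpar N ℓ' hℓ' hℓ'N ℤ ℤ)
            ((ℓ' : ℕ) : Module.End ℤ ↥(parabolicHoms ℤ (Gamma0 N) ℤ)) j') ψ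
          = (p ^ n) • ψ' := by
  classical
  haveI := s29_pl_fg N
  haveI : Module.Finite ℤ ↥(parabolicHoms ℤ (Gamma0 N) ℤ) := s29_pl_finite (Gamma0 N)
  have hS37 := Fermat.Agent.S37.result N (p ^ n) (s29_hc_commute N)
  have hnd : ∀ ℓ : ℕ, ℓ.Prime → ℓ ∉ S → ¬ ℓ ∣ N * p ^ n :=
    fun ℓ hℓ hℓS => s31_ti_not_dvd N p n hp S hpS hNS ℓ hℓ hℓS
  have hnd1 : ∀ ℓ : ℕ, ℓ.Prime → ℓ ∉ S → ¬ ℓ ∣ N * p := by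
    intro ℓ hℓ hℓS
    have := s31_ti_not_dvd N p 1 hp S hpS hNS ℓ hℓ hℓS
    rwa [pow_one] at this
  have hndN : ∀ ℓ : ℕ, ℓ.Prime → ℓ ∉ S → ¬ ℓ ∣ N := fun ℓ hℓ hℓS h => hℓS (hNS ℓ hℓ h)
  -- the operators on `Λ`
  let Tc : Nat.Primes → Module.End ℤ ↥(parabolicHoms ℤ (Gamma0 N) ℤ) := fun ℓ =>
    if h : ¬ (ℓ : ℕ) ∣ N then s29_cp_Tpar N ℓ ℓ.2 h ℤ ℤ else 0
  have hTc : ∀ (ℓ : ℕ) (hℓ : ℓ.Prime) (h : ¬ ℓ ∣ N), Tc ⟨ℓ, hℓ⟩ = s29_cp_Tpar N ℓ hℓ h ℤ ℤ :=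
    fun ℓ hℓ h => dif_pos h
  -- the map into the torsion
  let ι' : ↥(parabolicHoms ℤ (Gamma0 N) ℤ) →+ s29_wa_Jp N (p ^ n) :=
    { toFun := fun ψ => ⟨ι ψ, s29_wa_mem_Jp.mpr (hι1 ψ)⟩
      map_zero' := Subtype.ext (map_zero ι)
      map_add' := fun a b => Subtype.ext (map_add ι a b) }
  have h1 : ∀ (ℓ : Nat.Primes) (σ : Γ) (x : s29_wa_Jp N (p ^ n)),
      s29_wa_hecke N (p ^ n) ℓ (s29_wa_gal N (p ^ n) σ x)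
        = s29_wa_gal N (p ^ n) σ (s29_wa_hecke N (p ^ n) ℓ x) :=
    fun ℓ σ x => Subtype.ext (s29_hc_galois_heckeBar N ℓ σ (x : JZero N))
  have h2 : ∀ x : s29_wa_Jp N (p ^ n), (p ^ n) • x = 0 := fun x => Subtype.ext x.2
  have h3 : ∀ x : s29_wa_Jp N (p ^ n), ∃ K₁ : IntermediateField ℚ Qb, s18_d1_IsGaloisNF K₁ ∧
      ∀ σ : Γ, (∀ c ∈ K₁, σ c = c) → s29_wa_gal N (p ^ n) σ x = x := by
    intro x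
    obtain ⟨K₁, hK₁, h⟩ := s29_wa_fix N (x : JZero N)
    exact ⟨K₁, hK₁, fun σ hσ => Subtype.ext (h σ hσ)⟩
  have h4 : ∀ ℓ : ℕ, ℓ.Prime → ℓ ∉ S → ∀ A : ValuationSubring Qb, A.LiesOverPrime ℓ →
      ∀ σ ∈ A.inertiaSubgroupIn ℚ, ∀ x : s29_wa_Jp N (p ^ n), s29_wa_gal N (p ^ n) σ x = x :=
    fun ℓ hℓ hℓS A hA σ hσ x =>
      Subtype.ext (s29_wa_unr N (p ^ n) hS37 ℓ hℓ (hnd ℓ hℓ hℓS) A hA σ hσ (x : JZero N) x.2)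
  have h5 : ∀ ℓ : Nat.Primes, (ℓ : ℕ) ∉ S → ∀ A : ValuationSubring Qb,
      A.LiesOverPrime ℓ → ∀ σ : Γ, A.IsFrobeniusAt σ ℓ → ∀ x : s29_wa_Jp N (p ^ n),
        s29_wa_gal N (p ^ n) σ (s29_wa_gal N (p ^ n) σ x)
          - s29_wa_hecke N (p ^ n) ℓ (s29_wa_gal N (p ^ n) σ x) + (ℓ : ℕ) • x = 0 :=
    fun ℓ hℓS A hA σ hσ x =>
      Subtype.ext (s29_wa_es N (p ^ n) (s29_hc_commute N) hS37 ℓ (hnd ℓ ℓ.2 hℓS) A hA σ hσ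
        (x : JZero N) x.2)
  have h6 : ∀ ψ : ↥(parabolicHoms ℤ (Gamma0 N) ℤ), ι' ψ = 0 → ∃ ψ', ψ = (p ^ n) • ψ' :=
    fun ψ hψ => hι2 ψ (congrArg Subtype.val hψ)
  have h7 : ∀ ℓ : Nat.Primes, (ℓ : ℕ) ∉ S → ∀ ψ : ↥(parabolicHoms ℤ (Gamma0 N) ℤ),
      ι' (Tc ℓ ψ) = s29_wa_hecke N (p ^ n) ℓ (ι' ψ) := by
    intro ℓ hℓS ψ
    apply Subtype.ext
    have hN : ¬ (ℓ : ℕ) ∣ N := hndN ℓ ℓ.2 hℓS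
    have e : Tc ℓ = s29_cp_Tpar N ℓ ℓ.2 hN ℤ ℤ := dif_pos hN
    rw [e]
    exact hι3 ℓ ℓ.2 hN (hnd1 ℓ ℓ.2 hℓS) ψ
  obtain ⟨ℓ, ℓ', A, A', σ, σ', j, j', hℓS, hℓ'S, hA, hA', hσ, hσ', hg, hg', hu⟩ :=
    s31_ti_abs p n hp S hpS hcheb (s29_wa_gal N (p ^ n)) (s29_wa_hecke N (p ^ n)) h1 h2 h3 h4 h5
      Tc ι' h6 h7 L q hq hqS P hP τ hτ g
  have hℓN : ¬ (ℓ : ℕ) ∣ N := hndN ℓ ℓ.2 hℓS
  have hℓ'N : ¬ (ℓ' : ℕ) ∣ N := hndN ℓ' ℓ'.2 hℓ'S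
  refine ⟨ℓ, ℓ', ℓ.2, ℓ'.2, hℓN, hℓ'N, A, A', σ, σ', j, j', hℓS, hℓ'S, hA, hA', hσ, hσ', hg, hg',
    fun ψ => ?_⟩
  obtain ⟨ψ', hψ'⟩ := hu ψ
  refine ⟨ψ', ?_⟩
  have e1 : Tc ℓ = s29_cp_Tpar N ℓ ℓ.2 hℓN ℤ ℤ := dif_pos hℓN
  have e2 : Tc ℓ' = s29_cp_Tpar N ℓ' ℓ'.2 hℓ'N ℤ ℤ := dif_pos hℓ'N
  rw [e1, e2] at hψ'
  exact hψ'

/-- Traces of two elements agreeing on the level of `𝔪 ^ k` are congruent modulo `𝔪 ^ k`. -/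
theorem s31_ti_approx {T : Type} [CommRing T] [IsLocalRing T] (ρ : GaloisRepAdic T) (k : ℕ)
    (L : IntermediateField ℚ Qb)
    (hLρ : ∀ σ : Γ, (∀ x ∈ L, σ x = x) → ∀ v : ρ.V,
      ρ.ρ σ v - v ∈ (IsLocalRing.maximalIdeal T ^ k) • (⊤ : Submodule T ρ.V))
    (γ s : Γ) (h : ∀ x ∈ L, γ x = s x) :
    LinearMap.trace T ρ.V (ρ.ρ s) - LinearMap.trace T ρ.V (ρ.ρ γ)
      ∈ IsLocalRing.maximalIdeal T ^ k := by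
  have hh : ∀ x ∈ L, (γ⁻¹ * s) x = x := by
    intro x hx
    rw [AlgEquiv.mul_apply, ← h x hx]
    exact γ.symm_apply_apply x
  have hs : s = γ * (γ⁻¹ * s) := by rw [mul_inv_cancel_left]
  have h1 := s31_tc_trace_sub_mem (IsLocalRing.maximalIdeal T ^ k) (ρ.ρ γ) (ρ.ρ (γ⁻¹ * s))
    (hLρ _ hh)
  rw [← map_mul, ← hs] at h1
  exact h1

/-- **Trace invariance, core.** -/
theorem s31_ti_core (N : ℕ) [NeZero N] (p : ℕ) (hp : p.Prime) (S : Finset ℕ) (hpS : p ∈ S)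
    (hNS : ∀ q : ℕ, q.Prime → q ∣ N → q ∈ S) (hcheb : s29_asm_Cheb)
    (hBR : ∀ n : ℕ, ∃ ι : ↥(parabolicHoms ℤ (Gamma0 N) ℤ) →+ JZero N,
      (∀ ψ, (p ^ n) • ι ψ = 0) ∧ (∀ ψ, ι ψ = 0 → ∃ ψ', ψ = (p ^ n) • ψ') ∧
      ∀ (ℓ : ℕ) (hℓ : ℓ.Prime) (hℓN : ¬ ℓ ∣ N), ¬ ℓ ∣ N * p → ∀ ψ,
        ι (s29_cp_Tpar N ℓ hℓ hℓN ℤ ℤ ψ) = heckeOperatorBar N ⟨ℓ, hℓ⟩ (ι ψ))
    {T : Type} [CommRing T] [IsLocalRing T] [IsHausdorff (IsLocalRing.maximalIdeal T) T]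
    (π : CuspForm.heckeAlgebra N 2 (↑S : Set ℕ) →+* T)
    (hsat : ∃ c : ℕ, ∀ (k : ℕ) (ℓ ℓ' : ℕ) (hℓ : ℓ.Prime) (hℓ' : ℓ'.Prime) (hℓN : ¬ ℓ ∣ N)
      (hℓ'N : ¬ ℓ' ∣ N) (hℓS : ℓ ∉ (↑S : Set ℕ)) (hℓ'S : ℓ' ∉ (↑S : Set ℕ)) (j j' : ℕ),
      (∀ ψ : ↥(parabolicHoms ℤ (Gamma0 N) ℤ), ∃ ψ' : ↥(parabolicHoms ℤ (Gamma0 N) ℤ),
        (s31_dk (s29_cp_Tpar N ℓ hℓ hℓN ℤ ℤ)
            ((ℓ : ℕ) : Module.End ℤ ↥(parabolicHoms ℤ (Gamma0 N) ℤ)) j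
          - s31_dk (s29_cp_Tpar N ℓ' hℓ' hℓ'N ℤ ℤ)
            ((ℓ' : ℕ) : Module.End ℤ ↥(parabolicHoms ℤ (Gamma0 N) ℤ)) j') ψ
          = (p ^ (k + c)) • ψ') →
      s31_dk (π (CuspForm.heckeAlgebra.T hℓ hℓN hℓS)) (ℓ : T) j
        - s31_dk (π (CuspForm.heckeAlgebra.T hℓ' hℓ'N hℓ'S)) (ℓ' : T) j'
        ∈ IsLocalRing.maximalIdeal T ^ k)
    (ρ : GaloisRepAdic T)
    (hfrob : ∀ (ℓ : ℕ) (hℓ : ℓ.Prime) (hℓN : ¬ ℓ ∣ N) (hℓS : ℓ ∉ (↑S : Set ℕ))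
      (A : ValuationSubring Qb), A.LiesOverPrime ℓ → ∀ σ : Γ, A.IsFrobeniusAt σ ℓ →
        LinearMap.charpoly (ρ.ρ σ)
          = X ^ 2 - C (π (CuspForm.heckeAlgebra.T hℓ hℓN hℓS)) * X + C ((ℓ : T)))
    (q : ℕ) (hq : q.Prime) (hqS : q ∉ S) (P : ValuationSubring Qb) (hP : P.LiesOverPrime q)
    (τ : Γ) (hτ : τ ∈ P.inertiaSubgroupIn ℚ) (g : Γ) :
    LinearMap.trace T ρ.V (ρ.ρ (g * τ)) = LinearMap.trace T ρ.V (ρ.ρ g) := by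
  obtain ⟨c, hc⟩ := hsat
  rw [← sub_eq_zero]
  refine IsHausdorff.haus' (I := IsLocalRing.maximalIdeal T) _ fun k => ?_
  rw [SModEq.zero, smul_eq_mul, Ideal.mul_top]
  obtain ⟨ι, hι1, hι2, hι3⟩ := hBR (k + c)
  obtain ⟨L, hL, hLρ⟩ := ρ.isAdicContinuous k
  haveI := hL
  obtain ⟨ℓ, ℓ', hℓ, hℓ', hℓN, hℓ'N, A, A', σ, σ', j, j', hℓS, hℓ'S, hA, hA', hσ, hσ', hg, hg',
    hu⟩ := s31_ti_level N p hp S hpS hNS hcheb (k + c) ι hι1 hι2 hι3 L q hq hqS P hP τ hτ g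
  have hℓS' : ℓ ∉ (↑S : Set ℕ) := fun h => hℓS (Finset.mem_coe.mp h)
  have hℓ'S' : ℓ' ∉ (↑S : Set ℕ) := fun h => hℓ'S (Finset.mem_coe.mp h)
  have h1 := hc k ℓ ℓ' hℓ hℓ' hℓN hℓ'N hℓS' hℓ'S' j j' hu
  have t1 : LinearMap.trace T ρ.V (ρ.ρ (σ ^ j))
      = s31_dk (π (CuspForm.heckeAlgebra.T hℓ hℓN hℓS')) (ℓ : T) j := by
    rw [map_pow]
    exact s31_dk_trace ρ.finrank_eq (ρ.ρ σ) _ _ (hfrob ℓ hℓ hℓN hℓS' A hA σ hσ) j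
  have t2 : LinearMap.trace T ρ.V (ρ.ρ (σ' ^ j'))
      = s31_dk (π (CuspForm.heckeAlgebra.T hℓ' hℓ'N hℓ'S')) (ℓ' : T) j' := by
    rw [map_pow]
    exact s31_dk_trace ρ.finrank_eq (ρ.ρ σ') _ _ (hfrob ℓ' hℓ' hℓ'N hℓ'S' A' hA' σ' hσ') j'
  have a1 := s31_ti_approx ρ k L hLρ g (σ ^ j) hg
  have a2 := s31_ti_approx ρ k L hLρ (g * τ) (σ' ^ j') hg'
  rw [t1] at a1
  rw [t2] at a2
  have e : LinearMap.trace T ρ.V (ρ.ρ (g * τ)) - LinearMap.trace T ρ.V (ρ.ρ g)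
      = (s31_dk (π (CuspForm.heckeAlgebra.T hℓ hℓN hℓS')) (ℓ : T) j
          - LinearMap.trace T ρ.V (ρ.ρ g))
        - (s31_dk (π (CuspForm.heckeAlgebra.T hℓ' hℓ'N hℓ'S')) (ℓ' : T) j'
          - LinearMap.trace T ρ.V (ρ.ρ (g * τ)))
        - (s31_dk (π (CuspForm.heckeAlgebra.T hℓ hℓN hℓS')) (ℓ : T) j
          - s31_dk (π (CuspForm.heckeAlgebra.T hℓ' hℓ'N hℓ'S')) (ℓ' : T) j') := by
    ring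
  rw [e]
  exact sub_mem (sub_mem a1 a2) h1

end Fermat.Agent.S31
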