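import Mathlib
import Fermat.Agent.S29.HeckeLatSat
import Fermat.Agent.S31.TraceInvCore

/-!
# S31, block (T): trace invariance

`s31_ti_main` : for the Galois representation `ρ` over `T` with `charpoly ρ(Frob_ℓ) =
X² - π(T_ℓ) X + ℓ` (`ℓ ∉ S`), `τ` in an inertia group at `q ∉ S` and any `g`:
`tr ρ(g τ) = tr ρ(g)`.  Inputs (hypotheses): weak Chebotarev and the bridge maps
`ι_n : Λ → J₀(N)[p ^ n]` at every level.  The transfer of congruences from `End(Λ)` to the Hecke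
algebra (`s31_ti_sat`) uses the faithful action `s29_ht_Theta` and its saturation index.
-/

set_option autoImplicit false

open Polynomial AlgebraicCurve ModularCurve CongruenceSubgroup ModularCurve.Period
open Fermat.Agent.S29

namespace Fermat.Agent.S31

local notation "Qb" => AlgebraicClosure ℚ
local notation "Γ" => (AlgebraicClosure ℚ ≃ₐ[ℚ] AlgebraicClosure ℚ)

/-- Transfer of congruences from `End(Λ)` to the Hecke algebra. -/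
theorem s31_ti_sat (N : ℕ) [NeZero N] (p : ℕ) (S : Finset ℕ)
    (hNS : ∀ q : ℕ, q.Prime → q ∣ N → q ∈ S)
    {T : Type} [CommRing T] [IsLocalRing T] (hpT : (p : T) ∈ IsLocalRing.maximalIdeal T)
    (π : CuspForm.heckeAlgebra N 2 (↑S : Set ℕ) →+* T) :
    ∃ c : ℕ, ∀ (k : ℕ) (ℓ ℓ' : ℕ) (hℓ : ℓ.Prime) (hℓ' : ℓ'.Prime) (hℓN : ¬ ℓ ∣ N)
      (hℓ'N : ¬ ℓ' ∣ N) (hℓS : ℓ ∉ (↑S : Set ℕ)) (hℓ'S : ℓ' ∉ (↑S : Set ℕ)) (j j' : ℕ),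
      (∀ ψ : ↥(parabolicHoms ℤ (Gamma0 N) ℤ), ∃ ψ' : ↥(parabolicHoms ℤ (Gamma0 N) ℤ),
        (s31_dk (s29_cp_Tpar N ℓ hℓ hℓN ℤ ℤ)
            ((ℓ : ℕ) : Module.End ℤ ↥(parabolicHoms ℤ (Gamma0 N) ℤ)) j
          - s31_dk (s29_cp_Tpar N ℓ' hℓ' hℓ'N ℤ ℤ)
            ((ℓ' : ℕ) : Module.End ℤ ↥(parabolicHoms ℤ (Gamma0 N) ℤ)) j') ψ
          = (p ^ (k + c)) • ψ') →
      s31_dk (π (CuspForm.heckeAlgebra.T hℓ hℓN hℓS)) (ℓ : T) j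
        - s31_dk (π (CuspForm.heckeAlgebra.T hℓ' hℓ'N hℓ'S)) (ℓ' : T) j'
        ∈ IsLocalRing.maximalIdeal T ^ k := by
  have hNS' : ∀ q : ℕ, q.Prime → q ∣ N → q ∈ (↑S : Set ℕ) :=
    fun q hq hqN => Finset.mem_coe.mpr (hNS q hq hqN)
  obtain ⟨c, hc⟩ := s29_ht_saturation' N (↑S : Set ℕ) hNS' p
  refine ⟨c, fun k ℓ ℓ' hℓ hℓ' hℓN hℓ'N hℓS hℓ'S j j' hu => ?_⟩
  have hΘ : s29_ht_Theta N (↑S : Set ℕ) hNS'
      (s31_dk (CuspForm.heckeAlgebra.T hℓ hℓN hℓS)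
          ((ℓ : ℕ) : CuspForm.heckeAlgebra N 2 (↑S : Set ℕ)) j
        - s31_dk (CuspForm.heckeAlgebra.T hℓ' hℓ'N hℓ'S)
          ((ℓ' : ℕ) : CuspForm.heckeAlgebra N 2 (↑S : Set ℕ)) j')
      = s31_dk (s29_cp_Tpar N ℓ hℓ hℓN ℤ ℤ)
          ((ℓ : ℕ) : Module.End ℤ ↥(parabolicHoms ℤ (Gamma0 N) ℤ)) j
        - s31_dk (s29_cp_Tpar N ℓ' hℓ' hℓ'N ℤ ℤ)
          ((ℓ' : ℕ) : Module.End ℤ ↥(parabolicHoms ℤ (Gamma0 N) ℤ)) j' := by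
    rw [map_sub, s31_dk_map, s31_dk_map, s29_ht_Theta_T, s29_ht_Theta_T, map_natCast,
      map_natCast]
  obtain ⟨t', ht'⟩ := hc k _ (fun ψ => by
    obtain ⟨ψ', hψ'⟩ := hu ψ
    refine ⟨ψ', ?_⟩
    rw [hΘ, hψ', ← Nat.cast_pow, natCast_zsmul])
  have hπ : π (s31_dk (CuspForm.heckeAlgebra.T hℓ hℓN hℓS)
          ((ℓ : ℕ) : CuspForm.heckeAlgebra N 2 (↑S : Set ℕ)) j
        - s31_dk (CuspForm.heckeAlgebra.T hℓ' hℓ'N hℓ'S)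
          ((ℓ' : ℕ) : CuspForm.heckeAlgebra N 2 (↑S : Set ℕ)) j')
      = s31_dk (π (CuspForm.heckeAlgebra.T hℓ hℓN hℓS)) (ℓ : T) j
        - s31_dk (π (CuspForm.heckeAlgebra.T hℓ' hℓ'N hℓ'S)) (ℓ' : T) j' := by
    rw [map_sub, s31_dk_map, s31_dk_map, map_natCast, map_natCast]
  rw [← hπ, ht', map_zsmul, zsmul_eq_mul]
  push_cast
  exact Ideal.mul_mem_right _ _ (Ideal.pow_mem_pow hpT k)

/-- **(T) Trace invariance.** -/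
theorem s31_ti_main (N : ℕ) [NeZero N] (p : ℕ) [Fact p.Prime] (S : Finset ℕ) (hpS : p ∈ S)
    (hNS : ∀ q : ℕ, q.Prime → q ∣ N → q ∈ S) (hcheb : Fermat.Agent.S29.s29_asm_Cheb)
    (hBR : ∀ n : ℕ, ∃ ι : ↥(parabolicHoms ℤ (Gamma0 N) ℤ) →+ JZero N,
      (∀ ψ, (p ^ n) • ι ψ = 0) ∧ (∀ ψ, ι ψ = 0 → ∃ ψ', ψ = (p ^ n) • ψ') ∧
      ∀ (ℓ : ℕ) (hℓ : ℓ.Prime) (hℓN : ¬ ℓ ∣ N), ¬ ℓ ∣ N * p → ∀ ψ,
        ι (s29_cp_Tpar N ℓ hℓ hℓN ℤ ℤ ψ) = heckeOperatorBar N ⟨ℓ, hℓ⟩ (ι ψ))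
    {T : Type} [CommRing T] [IsLocalRing T] [IsHausdorff (IsLocalRing.maximalIdeal T) T]
    (hpT : (p : T) ∈ IsLocalRing.maximalIdeal T)
    (π : CuspForm.heckeAlgebra N 2 (↑S : Set ℕ) →+* T) (ρ : GaloisRepAdic T)
    (hfrob : ∀ (ℓ : ℕ) (hℓ : ℓ.Prime) (hℓN : ¬ ℓ ∣ N) (hℓS : ℓ ∉ (↑S : Set ℕ))
      (A : ValuationSubring Qb), A.LiesOverPrime ℓ → ∀ σ : Γ, A.IsFrobeniusAt σ ℓ →
        LinearMap.charpoly (ρ.ρ σ)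
          = X ^ 2 - C (π (CuspForm.heckeAlgebra.T hℓ hℓN hℓS)) * X + C ((ℓ : T)))
    (q : ℕ) (hq : q.Prime) (hqS : q ∉ S) (P : ValuationSubring Qb) (hP : P.LiesOverPrime q)
    (τ : Γ) (hτ : τ ∈ P.inertiaSubgroupIn ℚ) (g : Γ) :
    LinearMap.trace T ρ.V (ρ.ρ (g * τ)) = LinearMap.trace T ρ.V (ρ.ρ g) :=
  s31_ti_core N p Fact.out S hpS hNS hcheb hBR π (s31_ti_sat N p S hNS hpT π) ρ hfrob q hq hqS P
    hP τ hτ g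

end Fermat.Agent.S31
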