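import Fermat.Agent.S29.HEig
import Fermat.Prelude.Def_CuspForm_HeckeAlgebra

/-!
# S31 leaf (SAT): the saturation index of the cohomological Hecke algebra (helper9)

`Λ = parabolicHoms ℤ (Gamma0 N) ℤ`.  The `ℤ`-algebra `s31_sat_Tc N S ⊆ End_ℤ(Λ)` generated by
the transfer Hecke operators `T_l^coh` (`l ∤ N` prime, `l ∉ S`) maps to the cusp-form Hecke
algebra `CuspForm.heckeAlgebra N 2 S` by a ring homomorphism `s31_sat_r` with `T_l^coh ↦ T_l`
(period map: injective and Hecke equivariant).  `s31_sat_main`: there is `c` such that every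
`u` in the cohomological algebra with `u Λ ⊆ p ^ n Λ` has `r u ∈ p ^ (n - c) 𝕋`.
-/

set_option autoImplicit false
set_option linter.style.haveILetI false

open CongruenceSubgroup ModularCurve ModularCurve.Period ModularForm
open scoped MatrixGroups TensorProduct

namespace Fermat.Agent.S31

open Fermat.Agent.S29

/-! ### abstract part -/

/-- a finitely generated submodule all of whose elements have a nonzero multiple in `A` has a
common such multiple. -/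
theorem s31_sat_common {E : Type*} [AddCommGroup E] (A Sat : Submodule ℤ E) (hfg : Sat.FG)
    (h : ∀ w ∈ Sat, ∃ k : ℕ, k ≠ 0 ∧ k • w ∈ A) :
    ∃ c : ℕ, c ≠ 0 ∧ ∀ w ∈ Sat, c • w ∈ A := by
  classical
  obtain ⟨s, hs⟩ := hfg
  have hsub : ∀ x ∈ s, x ∈ Sat := fun x hx => hs ▸ Submodule.subset_span hx
  choose! k hk0 hk using h
  refine ⟨∏ x ∈ s, k x, ?_, ?_⟩
  · exact Finset.prod_ne_zero_iff.mpr fun x hx => hk0 x (hsub x hx)
  · intro w hw
    rw [← hs] at hw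
    induction hw using Submodule.span_induction with
    | mem x hx =>
      have hx' : x ∈ s := hx
      rw [← Finset.mul_prod_erase s k hx', mul_comm, mul_smul]
      exact A.smul_of_tower_mem _ (hk x (hsub x hx'))
    | zero => rw [smul_zero]; exact A.zero_mem
    | add x y _ _ hx hy => rw [smul_add]; exact A.add_mem hx hy
    | smul a x _ hx => rw [smul_comm]; exact A.smul_mem a hx

/-- **abstract saturation lemma.** -/
theorem s31_sat_abs {E B : Type*} [AddCommGroup E] [Module.Finite ℤ E] [AddCommGroup B]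
    [IsAddTorsionFree B] (A : Submodule ℤ E) (r : A →ₗ[ℤ] B) (p : ℕ) (hp : p.Prime) :
    ∃ c : ℕ, ∀ (n : ℕ) (u : A), (∃ w : E, (u : E) = (p ^ n : ℕ) • w) →
      ∃ t : B, r u = (p ^ (n - c) : ℕ) • t := by
  classical
  let Sat : Submodule ℤ E :=
    { carrier := {w | ∃ k : ℕ, k ≠ 0 ∧ k • w ∈ A}
      add_mem' := by
        rintro a b ⟨k, hk0, hk⟩ ⟨k', hk0', hk'⟩
        refine ⟨k * k', mul_ne_zero hk0 hk0', ?_⟩
        rw [smul_add]
        refine A.add_mem ?_ ?_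
        · rw [mul_comm, mul_smul]; exact A.smul_of_tower_mem _ hk
        · rw [mul_smul]; exact A.smul_of_tower_mem _ hk'
      zero_mem' := ⟨1, one_ne_zero, by rw [smul_zero]; exact A.zero_mem⟩
      smul_mem' := by
        rintro a b ⟨k, hk0, hk⟩
        refine ⟨k, hk0, ?_⟩
        rw [smul_comm]; exact A.smul_mem a hk }
  haveI : IsNoetherian ℤ E := isNoetherian_of_isNoetherianRing_of_finite ℤ E
  obtain ⟨c', hc'0, hc'⟩ := s31_sat_common A Sat (IsNoetherian.noetherian Sat)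
    (fun w hw => hw)
  obtain ⟨c, c'', hc'', hcc⟩ := Nat.exists_eq_pow_mul_and_not_dvd hc'0 p hp.ne_one
  refine ⟨c, ?_⟩
  rintro n u ⟨w, hw⟩
  rcases le_or_gt n c with hn | hn
  · refine ⟨r u, ?_⟩
    rw [Nat.sub_eq_zero_of_le hn, pow_zero, one_smul]
  · have hwS : w ∈ Sat := ⟨p ^ n, pow_ne_zero _ hp.ne_zero, by rw [← hw]; exact u.2⟩
    let a : A := ⟨c' • w, hc' w hwS⟩
    have h1 : (p ^ n : ℕ) • a = c' • u := by
      apply Subtype.ext
      show (p ^ n : ℕ) • (c' • w) = c' • (u : E)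
      rw [hw, smul_comm]
    have h2 : (p ^ n : ℕ) • r a = c' • r u := by
      rw [← map_nsmul, h1, map_nsmul]
    have h3 : (p ^ c : ℕ) • (c'' • r u) = (p ^ c : ℕ) • ((p ^ (n - c) : ℕ) • r a) := by
      rw [← mul_smul, ← mul_smul, ← hcc, ← h2, ← pow_add, Nat.add_sub_cancel' hn.le]
    have h4 : c'' • r u = (p ^ (n - c) : ℕ) • r a :=
      nsmul_right_injective (pow_ne_zero _ hp.ne_zero) h3
    have hcop : IsCoprime (c'' : ℤ) ((p ^ (n - c) : ℕ) : ℤ) := by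
      rw [Nat.isCoprime_iff_coprime]
      exact Nat.Coprime.pow_right _ ((Nat.Prime.coprime_iff_not_dvd hp).mpr hc'').symm
    obtain ⟨x, y, hxy⟩ := hcop
    refine ⟨x • r a + y • r u, ?_⟩
    calc r u = (x * (c'' : ℤ) + y * ((p ^ (n - c) : ℕ) : ℤ)) • r u := by rw [hxy, one_smul]
      _ = x • (c'' • r u) + y • ((p ^ (n - c) : ℕ) • r u) := by
          rw [add_smul, mul_smul, mul_smul, natCast_zsmul, natCast_zsmul]
      _ = (p ^ (n - c) : ℕ) • (x • r a + y • r u) := by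
          rw [h4, smul_add, smul_comm x, smul_comm y]

/-- an endomorphism of a torsion-free abelian group with image in `k Λ` is `k` times an
endomorphism. -/
theorem s31_sat_div {L : Type*} [AddCommGroup L] [IsAddTorsionFree L] (u : Module.End ℤ L)
    (k : ℕ) (hk : k ≠ 0) (h : ∀ x, ∃ y, u x = k • y) : ∃ w : Module.End ℤ L, u = k • w := by
  choose y hy using h
  have hinj : Function.Injective fun a : L => k • a := nsmul_right_injective hk
  refine ⟨{ toFun := y, map_add' := ?_, map_smul' := ?_ }, ?_⟩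
  · intro a b
    apply hinj
    show k • y (a + b) = k • (y a + y b)
    rw [smul_add, ← hy, ← hy, ← hy, map_add]
  · intro m a
    apply hinj
    show k • y (m • a) = k • ((RingHom.id ℤ) m • y a)
    rw [RingHom.id_apply, smul_comm, ← hy, ← hy, map_zsmul]
  · refine LinearMap.ext fun x => ?_
    rw [LinearMap.smul_apply]
    exact hy x

/-! ### the cohomological Hecke algebra -/

noncomputable section

/-- the generators `T_l^coh`, `l ∤ N` prime, `l ∉ S`. -/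
def s31_sat_gens (N : ℕ) (S : Set ℕ) :
    Set (Module.End ℤ ↥(parabolicHoms ℤ (Gamma0 N) ℤ)) :=
  {T | ∃ (l : ℕ) (hl : l.Prime) (hlN : ¬ l ∣ N), l ∉ S ∧ T = s29_cp_Tpar N l hl hlN ℤ ℤ}

/-- the cohomological Hecke algebra: the `ℤ`-subalgebra of `End_ℤ(Λ)` generated by the
`T_l^coh`, `l ∤ N` prime, `l ∉ S`. -/
def s31_sat_Tc (N : ℕ) (S : Set ℕ) :
    Subalgebra ℤ (Module.End ℤ ↥(parabolicHoms ℤ (Gamma0 N) ℤ)) :=
  Algebra.adjoin ℤ (s31_sat_gens N S)

instance s31_sat_Tc_isMulCommutative (N : ℕ) [NeZero N] (S : Set ℕ) :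
    IsMulCommutative (s31_sat_Tc N S) :=
  Algebra.isMulCommutative_adjoin ℤ fun _ hT _ hT' => by
    obtain ⟨l, hl, hlN, -, rfl⟩ := hT
    obtain ⟨l', hl', hl'N, -, rfl⟩ := hT'
    exact s29_cc_comm N l l' hl hlN hl' hl'N

open scoped IsMulCommutative in
instance s31_sat_Tc_commRing (N : ℕ) [NeZero N] (S : Set ℕ) : CommRing (s31_sat_Tc N S) :=
  inferInstance

/-- the generator `T_l^coh` of the cohomological Hecke algebra. -/
def s31_sat_T {N : ℕ} {S : Set ℕ} {l : ℕ} (hl : l.Prime) (hlN : ¬ l ∣ N) (hlS : l ∉ S) :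
    s31_sat_Tc N S :=
  ⟨s29_cp_Tpar N l hl hlN ℤ ℤ, Algebra.subset_adjoin ⟨l, hl, hlN, hlS, rfl⟩⟩

@[simp] theorem s31_sat_T_coe {N : ℕ} {S : Set ℕ} {l : ℕ} (hl : l.Prime) (hlN : ¬ l ∣ N)
    (hlS : l ∉ S) :
    ((s31_sat_T hl hlN hlS : s31_sat_Tc N S) :
      Module.End ℤ ↥(parabolicHoms ℤ (Gamma0 N) ℤ)) = s29_cp_Tpar N l hl hlN ℤ ℤ := rfl

/-! ### the graph of the comparison -/

/-- the period map is injective. -/
theorem s31_sat_period_injective (N : ℕ) [NeZero N] :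
    Function.Injective (Fermat.Agent.S21.pml N) := by
  rw [← LinearMap.ker_eq_bot, LinearMap.ker_eq_bot']
  intro f hf
  by_contra h
  exact s29_he_periodMap_ne_zero h (by rw [← Fermat.Agent.S21.pml_apply, hf])

/-- compatibility of a pair `(u, t) ∈ End_ℤ(Λ) × End_ℂ(S₂)` with the period map. -/
def s31_sat_Compat (N : ℕ) [NeZero N]
    (x : Module.End ℤ ↥(parabolicHoms ℤ (Gamma0 N) ℤ) ×
      Module.End ℂ (CuspForm (Gamma0 N) 2)) : Prop :=
  ∀ (f : CuspForm (Gamma0 N) 2) (v : ℂ ⊗[ℤ] ↥(parabolicHoms ℤ (Gamma0 N) ℤ)),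
    s29_pl_Phi (Gamma0 N) v = Fermat.Agent.S21.pml N f →
      s29_pl_Phi (Gamma0 N) (x.1.baseChange ℂ v) = Fermat.Agent.S21.pml N (x.2 f)

/-- the subring of compatible pairs. -/
def s31_sat_graph (N : ℕ) [NeZero N] :
    Subring (Module.End ℤ ↥(parabolicHoms ℤ (Gamma0 N) ℤ) ×
      Module.End ℂ (CuspForm (Gamma0 N) 2)) where
  carrier := {x | s31_sat_Compat N x}
  mul_mem' := by
    intro x y hx hy f v hv
    have h1 := hy f v hv
    have h2 := hx (y.2 f) (y.1.baseChange ℂ v) h1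
    have e1 : (x * y).1.baseChange ℂ v = x.1.baseChange ℂ (y.1.baseChange ℂ v) := by
      show (x.1 * y.1).baseChange ℂ v = _
      rw [Module.End.mul_eq_comp, LinearMap.baseChange_comp]
      rfl
    rw [e1, h2]
    rfl
  one_mem' := by
    intro f v hv
    have e1 : (1 : Module.End ℤ ↥(parabolicHoms ℤ (Gamma0 N) ℤ) ×
        Module.End ℂ (CuspForm (Gamma0 N) 2)).1.baseChange ℂ v = v := by
      show (1 : Module.End ℤ ↥(parabolicHoms ℤ (Gamma0 N) ℤ)).baseChange ℂ v = v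
      rw [Module.End.one_eq_id, LinearMap.baseChange_id]
      rfl
    rw [e1, hv]
    rfl
  add_mem' := by
    intro x y hx hy f v hv
    have e1 : (x + y).1.baseChange ℂ v = x.1.baseChange ℂ v + y.1.baseChange ℂ v := by
      show (x.1 + y.1).baseChange ℂ v = _
      rw [LinearMap.baseChange_add]
      rfl
    have e2 : (x + y).2 f = x.2 f + y.2 f := rfl
    rw [e1, e2, map_add, map_add, hx f v hv, hy f v hv]
  zero_mem' := by
    intro f v hv
    have e1 : (0 : Module.End ℤ ↥(parabolicHoms ℤ (Gamma0 N) ℤ) ×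
        Module.End ℂ (CuspForm (Gamma0 N) 2)).1.baseChange ℂ v = 0 := by
      show (0 : Module.End ℤ ↥(parabolicHoms ℤ (Gamma0 N) ℤ)).baseChange ℂ v = 0
      rw [LinearMap.baseChange_zero]
      rfl
    have e2 : (0 : Module.End ℤ ↥(parabolicHoms ℤ (Gamma0 N) ℤ) ×
        Module.End ℂ (CuspForm (Gamma0 N) 2)).2 f = 0 := rfl
    rw [e1, e2, map_zero, map_zero]
  neg_mem' := by
    intro x hx f v hv
    have e1 : (-x).1.baseChange ℂ v = -(x.1.baseChange ℂ v) := by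
      show (-x.1).baseChange ℂ v = _
      rw [LinearMap.baseChange_neg]
      rfl
    have e2 : (-x).2 f = -(x.2 f) := rfl
    rw [e1, e2, map_neg, map_neg, hx f v hv]

/-- a compatible pair is determined by its first component. -/
theorem s31_sat_graph_unique (N : ℕ) [NeZero N]
    {x y : Module.End ℤ ↥(parabolicHoms ℤ (Gamma0 N) ℤ) ×
      Module.End ℂ (CuspForm (Gamma0 N) 2)}
    (hx : x ∈ s31_sat_graph N) (hy : y ∈ s31_sat_graph N) (h : x.1 = y.1) : x.2 = y.2 := by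
  haveI := s29_pl_fg N
  refine LinearMap.ext fun f => ?_
  obtain ⟨v, hv⟩ := s29_pl_Phi_surj (Gamma0 N) (periodMap N f) (s29_he_period_mem f)
  have h1 := hx f v hv
  have h2 := hy f v hv
  rw [h] at h1
  exact s31_sat_period_injective N (h1.symm.trans h2)

/-- the pairs `(T_l^coh, T_l)`. -/
def s31_sat_pairs (N : ℕ) [NeZero N] (S : Set ℕ) :
    Set (Module.End ℤ ↥(parabolicHoms ℤ (Gamma0 N) ℤ) ×
      Module.End ℂ (CuspForm (Gamma0 N) 2)) :=
  {x | ∃ (l : ℕ) (hl : l.Prime) (hlN : ¬ l ∣ N), l ∉ S ∧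
    x = (s29_cp_Tpar N l hl hlN ℤ ℤ, CuspForm.heckeTLin 2 hl hlN)}

/-- the pair `(T_l^coh, T_l)` is compatible. -/
theorem s31_sat_pair_compat (N : ℕ) [NeZero N] {l : ℕ} (hl : l.Prime) (hlN : ¬ l ∣ N) :
    s31_sat_Compat N (s29_cp_Tpar N l hl hlN ℤ ℤ, CuspForm.heckeTLin 2 hl hlN) := by
  intro f v hv
  show s29_pl_Phi (Gamma0 N) ((s29_cp_Tpar N l hl hlN ℤ ℤ).baseChange ℂ v) =
    periodMap N (CuspForm.heckeTLin 2 hl hlN f)
  rw [s29_heig_Phi_T, hv, s29_hp_period]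
  rfl

/-- the subalgebra generated by the pairs `(T_l^coh, T_l)`. -/
def s31_sat_B (N : ℕ) [NeZero N] (S : Set ℕ) :
    Subalgebra ℤ (Module.End ℤ ↥(parabolicHoms ℤ (Gamma0 N) ℤ) ×
      Module.End ℂ (CuspForm (Gamma0 N) 2)) :=
  Algebra.adjoin ℤ (s31_sat_pairs N S)

theorem s31_sat_B_le (N : ℕ) [NeZero N] (S : Set ℕ) :
    s31_sat_B N S ≤ subalgebraOfSubring (s31_sat_graph N) := by
  refine Algebra.adjoin_le ?_
  rintro x ⟨l, hl, hlN, -, rfl⟩
  exact s31_sat_pair_compat N hl hlN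

theorem s31_sat_B_fst (N : ℕ) [NeZero N] (S : Set ℕ) :
    (s31_sat_B N S).map (AlgHom.fst ℤ _ _) = s31_sat_Tc N S := by
  rw [s31_sat_B, AlgHom.map_adjoin, s31_sat_Tc]
  congr 1
  ext T
  constructor
  · rintro ⟨x, ⟨l, hl, hlN, hlS, rfl⟩, rfl⟩
    exact ⟨l, hl, hlN, hlS, rfl⟩
  · rintro ⟨l, hl, hlN, hlS, rfl⟩
    exact ⟨_, ⟨l, hl, hlN, hlS, rfl⟩, rfl⟩

theorem s31_sat_B_snd (N : ℕ) [NeZero N] (S : Set ℕ) :
    (s31_sat_B N S).map (AlgHom.snd ℤ _ _) ≤ CuspForm.heckeAlgebra N 2 S := by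
  rw [s31_sat_B, AlgHom.map_adjoin]
  refine Algebra.adjoin_le ?_
  rintro T ⟨x, ⟨l, hl, hlN, hlS, rfl⟩, rfl⟩
  exact CuspForm.heckeTLin_mem_heckeAlgebra hl hlN hlS

/-- first projection `𝔹 → 𝕋^coh`. -/
def s31_sat_phi1 (N : ℕ) [NeZero N] (S : Set ℕ) : s31_sat_B N S →ₐ[ℤ] s31_sat_Tc N S :=
  ((AlgHom.fst ℤ _ _).comp (s31_sat_B N S).val).codRestrict (s31_sat_Tc N S) (fun x => by
    rw [← s31_sat_B_fst]
    exact ⟨x.1, x.2, rfl⟩)

/-- second projection `𝔹 → 𝕋`. -/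
def s31_sat_phi2 (N : ℕ) [NeZero N] (S : Set ℕ) :
    s31_sat_B N S →ₐ[ℤ] CuspForm.heckeAlgebra N 2 S :=
  ((AlgHom.snd ℤ _ _).comp (s31_sat_B N S).val).codRestrict (CuspForm.heckeAlgebra N 2 S)
    (fun x => s31_sat_B_snd N S ⟨x.1, x.2, rfl⟩)

theorem s31_sat_phi1_bijective (N : ℕ) [NeZero N] (S : Set ℕ) :
    Function.Bijective (s31_sat_phi1 N S) := by
  constructor
  · intro x y h
    have h1 : x.1.1 = y.1.1 := congrArg Subtype.val h
    have h2 := s31_sat_graph_unique N (s31_sat_B_le N S x.2) (s31_sat_B_le N S y.2) h1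
    exact Subtype.ext (Prod.ext h1 h2)
  · intro u
    have hu : (u : Module.End ℤ ↥(parabolicHoms ℤ (Gamma0 N) ℤ)) ∈
        (s31_sat_B N S).map (AlgHom.fst ℤ _ _) := by
      rw [s31_sat_B_fst]
      exact u.2
    obtain ⟨x, hx, hxu⟩ := hu
    exact ⟨⟨x, hx⟩, Subtype.ext hxu⟩

/-- **the comparison homomorphism** `𝕋^coh → 𝕋`, `T_l^coh ↦ T_l`. -/
def s31_sat_r (N : ℕ) [NeZero N] (S : Set ℕ) :
    s31_sat_Tc N S →+* CuspForm.heckeAlgebra N 2 S :=
  ((s31_sat_phi2 N S).comp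
    (AlgEquiv.ofBijective (s31_sat_phi1 N S) (s31_sat_phi1_bijective N S)).symm.toAlgHom).toRingHom

theorem s31_sat_r_T (N : ℕ) [NeZero N] (S : Set ℕ) {l : ℕ} (hl : l.Prime) (hlN : ¬ l ∣ N)
    (hlS : l ∉ S) :
    s31_sat_r N S (s31_sat_T hl hlN hlS) = CuspForm.heckeAlgebra.T hl hlN hlS := by
  let x : s31_sat_B N S := ⟨(s29_cp_Tpar N l hl hlN ℤ ℤ, CuspForm.heckeTLin 2 hl hlN),
    Algebra.subset_adjoin ⟨l, hl, hlN, hlS, rfl⟩⟩
  have h0 : s31_sat_phi1 N S x = s31_sat_T hl hlN hlS := rfl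
  have h1 : (AlgEquiv.ofBijective (s31_sat_phi1 N S) (s31_sat_phi1_bijective N S)).symm
      (s31_sat_T hl hlN hlS) = x := by
    rw [← h0]
    exact AlgEquiv.ofBijective_symm_apply_apply _ _ x
  show s31_sat_phi2 N S ((AlgEquiv.ofBijective (s31_sat_phi1 N S)
    (s31_sat_phi1_bijective N S)).symm (s31_sat_T hl hlN hlS)) = _
  rw [h1]
  rfl

theorem s31_sat_r_phi1 (N : ℕ) [NeZero N] (S : Set ℕ) (x : s31_sat_B N S) :
    s31_sat_r N S (s31_sat_phi1 N S x) = s31_sat_phi2 N S x := by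
  have h1 : (AlgEquiv.ofBijective (s31_sat_phi1 N S) (s31_sat_phi1_bijective N S)).symm
      (s31_sat_phi1 N S x) = x := AlgEquiv.ofBijective_symm_apply_apply _ _ x
  show s31_sat_phi2 N S ((AlgEquiv.ofBijective (s31_sat_phi1 N S)
    (s31_sat_phi1_bijective N S)).symm (s31_sat_phi1 N S x)) = _
  rw [h1]

/-- `r` is compatible with the period map: for `u ∈ 𝕋^coh`, the pair `(u, r u)` is compatible. -/
theorem s31_sat_r_compat (N : ℕ) [NeZero N] (S : Set ℕ) (u : s31_sat_Tc N S) :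
    s31_sat_Compat N ((u : Module.End ℤ ↥(parabolicHoms ℤ (Gamma0 N) ℤ)),
      ((s31_sat_r N S u : CuspForm.heckeAlgebra N 2 S) :
        Module.End ℂ (CuspForm (Gamma0 N) 2))) := by
  obtain ⟨x, rfl⟩ := (s31_sat_phi1_bijective N S).2 u
  have e : ((s31_sat_r N S (s31_sat_phi1 N S x) : CuspForm.heckeAlgebra N 2 S) :
      Module.End ℂ (CuspForm (Gamma0 N) 2)) = x.1.2 :=
    congrArg Subtype.val (s31_sat_r_phi1 N S x)
  have h : s31_sat_Compat N (x.1.1, x.1.2) := s31_sat_B_le N S x.2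
  intro f v hv
  exact (h f v hv).trans
    (congrArg (fun t : Module.End ℂ (CuspForm (Gamma0 N) 2) => Fermat.Agent.S21.pml N (t f))
      e.symm)

/-! ### the main statement -/

/-- **(SAT).** There is `c` such that every `u` in the cohomological Hecke algebra with
`u Λ ⊆ p ^ n Λ` is mapped into `p ^ (n - c) 𝕋` by the comparison homomorphism. -/
theorem s31_sat_main (N : ℕ) [NeZero N] (S : Set ℕ) (p : ℕ) (hp : p.Prime) :
    ∃ c : ℕ, ∀ (n : ℕ) (u : s31_sat_Tc N S),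
      (∀ ψ : ↥(parabolicHoms ℤ (Gamma0 N) ℤ), ∃ ψ' : ↥(parabolicHoms ℤ (Gamma0 N) ℤ),
        (u : Module.End ℤ ↥(parabolicHoms ℤ (Gamma0 N) ℤ)) ψ = (p ^ n : ℤ) • ψ') →
      ∃ t : CuspForm.heckeAlgebra N 2 S,
        s31_sat_r N S u = (p : CuspForm.heckeAlgebra N 2 S) ^ (n - c) * t := by
  haveI := s29_pl_fg N
  haveI := s29_pl_finite (Gamma0 N)
  haveI := s29_pl_free (Gamma0 N)
  haveI : Module.Finite ℤ (Module.End ℤ ↥(parabolicHoms ℤ (Gamma0 N) ℤ)) :=
    Module.Finite.linearMap ℤ ℤ _ _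
  obtain ⟨c, hc⟩ := s31_sat_abs (Subalgebra.toSubmodule (s31_sat_Tc N S))
    ((s31_sat_r N S).toAddMonoidHom.toIntLinearMap) p hp
  refine ⟨c, fun n u hu => ?_⟩
  obtain ⟨w, hw⟩ := s31_sat_div (u : Module.End ℤ ↥(parabolicHoms ℤ (Gamma0 N) ℤ)) (p ^ n)
    (pow_ne_zero _ hp.ne_zero) (fun ψ => by
      obtain ⟨ψ', hψ'⟩ := hu ψ
      refine ⟨ψ', ?_⟩
      rw [hψ']
      norm_cast)
  obtain ⟨t, ht⟩ := hc n u ⟨w, hw⟩
  refine ⟨t, ?_⟩
  have ht' : s31_sat_r N S u = (p ^ (n - c) : ℕ) • t := ht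
  rw [ht', nsmul_eq_mul]
  push_cast
  rfl

/-- `r` is compatible with the period map, pointwise form: for `f ∈ S₂(Γ₀(N))` and any
`v ∈ ℂ ⊗ Λ` representing the period homomorphism of `f`, `(u ⊗ ℂ) v` represents the period
homomorphism of `(r u) f`. -/
theorem s31_sat_r_period (N : ℕ) [NeZero N] (S : Set ℕ) (u : s31_sat_Tc N S)
    (f : CuspForm (Gamma0 N) 2) (v : ℂ ⊗[ℤ] ↥(parabolicHoms ℤ (Gamma0 N) ℤ))
    (hv : s29_pl_Phi (Gamma0 N) v = periodMap N f) :
    s29_pl_Phi (Gamma0 N)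
        ((u : Module.End ℤ ↥(parabolicHoms ℤ (Gamma0 N) ℤ)).baseChange ℂ v) =
      periodMap N (((s31_sat_r N S u : CuspForm.heckeAlgebra N 2 S) :
        Module.End ℂ (CuspForm (Gamma0 N) 2)) f) :=
  s31_sat_r_compat N S u f v hv

end

attribute [irreducible] s31_sat_r s31_sat_T

end Fermat.Agent.S31
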