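import Mathlib

/-!
# S31, block (T), leaf (SAT): the saturation index

For a subgroup `H` of a finitely generated abelian group `E` and a prime `p` there are `c` and
`M'` prime to `p` such that `p ^ (n + c) • v ∈ H` implies `M' • (p ^ (n + c) • v) ∈ p ^ n • H`.
(Applied to `E = End(Λ)`, `H =` the image of the Hecke algebra.)
-/

set_option autoImplicit false

namespace Fermat.Agent.S31

/-- There is a positive integer `M` with `M • e ∈ H` for every `e` having a positive multiple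
in `H`. -/
theorem s31_sa_bound {E : Type*} [AddCommGroup E] [Module.Finite ℤ E] (H : AddSubgroup E) :
    ∃ M : ℕ, 0 < M ∧ ∀ (m : ℕ) (e : E), 0 < m → m • e ∈ H → M • e ∈ H := by
  classical
  -- the saturation of `H`
  let Sat : Submodule ℤ E :=
    { carrier := {e | ∃ m : ℕ, 0 < m ∧ m • e ∈ H}
      add_mem' := by
        rintro a b ⟨m, hm, ha⟩ ⟨m', hm', hb⟩
        refine ⟨m * m', Nat.mul_pos hm hm', ?_⟩
        rw [nsmul_add]
        refine H.add_mem ?_ ?_
        · rw [mul_nsmul]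
          exact H.nsmul_mem ha m'
        · rw [mul_comm, mul_nsmul]
          exact H.nsmul_mem hb m
      zero_mem' := ⟨1, Nat.one_pos, by rw [nsmul_zero]; exact H.zero_mem⟩
      smul_mem' := by
        rintro c a ⟨m, hm, ha⟩
        refine ⟨m, hm, ?_⟩
        rw [smul_comm]
        exact H.zsmul_mem ha c }
  have hnoeth : IsNoetherian ℤ E := isNoetherian_of_isNoetherianRing_of_finite ℤ E
  obtain ⟨T, hT⟩ : Sat.FG := IsNoetherian.noetherian Sat
  have hTmem : ∀ s ∈ T, ∃ m : ℕ, 0 < m ∧ m • s ∈ H := by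
    intro s hs
    have : s ∈ Sat := hT ▸ Submodule.subset_span hs
    exact this
  choose! mf hmf using hTmem
  refine ⟨∏ s ∈ T, mf s, Finset.prod_pos fun s hs => (hmf s hs).1, ?_⟩
  intro m e hm hme
  have he : e ∈ Sat := ⟨m, hm, hme⟩
  rw [← hT] at he
  refine Submodule.span_induction (p := fun x _ => (∏ s ∈ T, mf s) • x ∈ H) ?_ ?_ ?_ ?_ he
  · intro s hs
    have hs' : s ∈ T := hs
    rw [← Finset.mul_prod_erase T mf hs', mul_nsmul]
    exact H.nsmul_mem (hmf s hs').2 _
  · rw [nsmul_zero]; exact H.zero_mem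
  · intro x y _ _ hx hy
    rw [nsmul_add]; exact H.add_mem hx hy
  · intro c x _ hx
    rw [smul_comm]; exact H.zsmul_mem hx c

/-- **(SAT)** the saturation index at `p`. -/
theorem s31_sa_main {E : Type*} [AddCommGroup E] [Module.Finite ℤ E] (H : AddSubgroup E)
    (p : ℕ) (hp : p.Prime) :
    ∃ (c M' : ℕ), Nat.Coprime M' p ∧ ∀ (n : ℕ) (v : E), (p ^ (n + c)) • v ∈ H →
      ∃ w ∈ H, M' • ((p ^ (n + c)) • v) = (p ^ n) • w := by
  obtain ⟨M, hM, hMH⟩ := s31_sa_bound H
  obtain ⟨c, M', hM', rfl⟩ := Nat.exists_eq_pow_mul_and_not_dvd hM.ne' p hp.ne_one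
  refine ⟨c, M', ((Nat.Prime.coprime_iff_not_dvd hp).mpr hM').symm, fun n v hv => ?_⟩
  refine ⟨(p ^ c * M') • v, hMH (p ^ (n + c)) v (pow_pos hp.pos _) hv, ?_⟩
  rw [← mul_nsmul', ← mul_nsmul']
  congr 1
  rw [pow_add]; ring

end Fermat.Agent.S31
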